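import Mathlib

/-!
# Kummer project: shared definitions

Goal of the project: Fermat's Last Theorem for the exponents 5, 7, 11, 13
(Sophie Germain for case I, Kummer's descent in the principal ideal domain `ℤ[ζ_p]` for case II).
-/

open NumberField

namespace Fermat.Agent.Kummer

/-- The Kummer-lemma property for the prime `p` and the number field `K`
(intended: `K` the `p`-th cyclotomic field): a unit of `𝓞 K` which is congruent to a rational
integer modulo `p` is a `p`-th power of a unit. -/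
def KummerLemmaHolds (p : ℕ) (K : Type*) [Field K] [NumberField K] : Prop :=
  ∀ u : (𝓞 K)ˣ, (∃ n : ℤ, (p : 𝓞 K) ∣ (u : 𝓞 K) - n) → ∃ v : (𝓞 K)ˣ, u = v ^ p

/-- Case I of Fermat's Last Theorem for the exponent `p`. -/
def CaseI (p : ℕ) : Prop :=
  ∀ a b c : ℤ, ¬ (p : ℤ) ∣ a * b * c → a ^ p + b ^ p ≠ c ^ p

/-- Case II of Fermat's Last Theorem for the exponent `p`, in the normalised form
"`p` divides only `c`". -/
def CaseII (p : ℕ) : Prop :=
  ∀ a b c : ℤ, c ≠ 0 → ¬ (p : ℤ) ∣ a → ¬ (p : ℤ) ∣ b → (p : ℤ) ∣ c → IsCoprime a b →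
    a ^ p + b ^ p ≠ c ^ p

end Fermat.Agent.Kummer
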