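import Mathlib
import Fermat.Agent.Kummer.Defs

/-!
# Kummer's descent (case II of Fermat's Last Theorem when `ℤ[ζ_p]` is a PID)

We follow Washington, *Introduction to cyclotomic fields*, Theorem 9.3 (with class number one).
The descent itself (`kd_step`, `kd_descent`) is carried out in an abstract principal ideal domain
`R` with a primitive `p`-th root of unity `ζ` such that `ζ - 1` is prime with residue field of
cardinality `p`.
-/

set_option autoImplicit false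
set_option linter.style.haveILetI false

open Polynomial Finset NumberField

namespace Fermat.Agent.Kummer

section Abstract

variable {R : Type*} [CommRing R]

/-- Freshman's dream for finite sums, modulo `p`. -/
theorem kd_sum_pow_prime {ι : Type*} {p : ℕ} (hp : p.Prime) (s : Finset ι) (f : ι → R) :
    ∃ r : R, (∑ i ∈ s, f i) ^ p = ∑ i ∈ s, f i ^ p + p * r := by
  classical
  induction s using Finset.induction_on with
  | empty => exact ⟨0, by simp [hp.ne_zero]⟩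
  | insert a s ha ih =>
    obtain ⟨r, hr⟩ := ih
    obtain ⟨r', hr'⟩ := exists_add_pow_prime_eq hp (f a) (∑ i ∈ s, f i)
    refine ⟨r + f a * (∑ i ∈ s, f i) * r', ?_⟩
    rw [Finset.sum_insert ha, Finset.sum_insert ha, hr', hr]
    ring

variable [IsDomain R]

/-- The descent step. -/
theorem kd_step [IsPrincipalIdealRing R] {p : ℕ} (hp : p.Prime) (hp2 : p ≠ 2) {ζ : R}
    (hζ : IsPrimitiveRoot ζ p) (hl : Prime (ζ - 1))
    (hcard : Nat.card (R ⧸ Ideal.span {ζ - 1}) = p)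
    (hpl : (p : R) ∣ (ζ - 1) ^ (p - 1))
    (hpow : ∀ a : R, ∃ n : ℤ, (p : R) ∣ a ^ p - n)
    (hKL : ∀ u : Rˣ, (∃ n : ℤ, (p : R) ∣ (u : R) - n) → ∃ v : Rˣ, u = v ^ p)
    {m : ℕ} (hm : 1 ≤ m) {x y z : R} {ε : Rˣ} (hy : ¬ (ζ - 1) ∣ y) (hz : ¬ (ζ - 1) ∣ z)
    (hxy : IsCoprime x y) (H : x ^ p + y ^ p = ε * (ζ - 1) ^ (p * m) * z ^ p) :
    2 ≤ m ∧ ∃ (x' y' z' : R) (ε' : Rˣ), ¬ (ζ - 1) ∣ y' ∧ ¬ (ζ - 1) ∣ z' ∧ IsCoprime x' y' ∧
      x' ^ p + y' ^ p = ε' * (ζ - 1) ^ (p * (m - 1)) * z' ^ p := by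
  classical
  have hodd : Odd p := hp.odd_of_ne_two hp2
  have hp3 : 3 ≤ p := by
    have := hp.two_le
    omega
  have hμcard : (nthRootsFinset p (1 : R)).card = p := hζ.card_nthRootsFinset
  have hprod : x ^ p + y ^ p = ∏ η ∈ nthRootsFinset p (1 : R), (x + η * y) :=
    hζ.pow_add_pow_eq_prod_add_mul x y hodd
  -- (a) `ζ - 1` divides every factor
  have hdvd : ∀ η ∈ nthRootsFinset p (1 : R), (ζ - 1) ∣ x + η * y := by
    have h1 : (ζ - 1) ∣ ∏ η ∈ nthRootsFinset p (1 : R), (x + η * y) := by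
      rw [← hprod, H]
      exact Dvd.dvd.mul_right (Dvd.dvd.mul_left
        (dvd_pow_self _ (Nat.mul_ne_zero hp.ne_zero (by omega))) _) _
    obtain ⟨η₀, hη₀, h0⟩ := (Prime.dvd_finsetProd_iff hl _).1 h1
    intro η hη
    have h2 : (ζ - 1) ∣ η - η₀ := hζ.sub_one_dvd_sub hp hη hη₀
    have e : x + η * y = (x + η₀ * y) + (η - η₀) * y := by ring
    rw [e]
    exact dvd_add h0 (h2.mul_right y)
  choose! a ha using hdvd
  -- (b) the quotients are pairwise incongruent modulo `ζ - 1`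
  have hdiff : ∀ η₁ ∈ nthRootsFinset p (1 : R), ∀ η₂ ∈ nthRootsFinset p (1 : R), η₁ ≠ η₂ →
      ∃ u : Rˣ, a η₁ - a η₂ = u * y ∧ η₁ * a η₂ - η₂ * a η₁ = u * x := by
    intro η₁ h₁ η₂ h₂ hne
    obtain ⟨u, hu⟩ := hζ.nthRootsFinset_pairwise_associated_sub_one_sub_of_prime hp h₁ h₂ hne
    refine ⟨u, ?_, ?_⟩
    · apply mul_left_cancel₀ hl.ne_zero
      calc (ζ - 1) * (a η₁ - a η₂) = (x + η₁ * y) - (x + η₂ * y) := by
            rw [ha _ h₁, ha _ h₂]; ring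
        _ = (η₁ - η₂) * y := by ring
        _ = (ζ - 1) * (u * y) := by rw [← hu]; ring
    · apply mul_left_cancel₀ hl.ne_zero
      calc (ζ - 1) * (η₁ * a η₂ - η₂ * a η₁) = η₁ * (x + η₂ * y) - η₂ * (x + η₁ * y) := by
            rw [ha _ h₁, ha _ h₂]; ring
        _ = (η₁ - η₂) * x := by ring
        _ = (ζ - 1) * (u * x) := by rw [← hu]; ring
  have hndiff : ∀ η₁ ∈ nthRootsFinset p (1 : R), ∀ η₂ ∈ nthRootsFinset p (1 : R), η₁ ≠ η₂ →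
      ¬ (ζ - 1) ∣ a η₁ - a η₂ := by
    intro η₁ h₁ η₂ h₂ hne hd
    obtain ⟨u, hu, -⟩ := hdiff η₁ h₁ η₂ h₂ hne
    rw [hu] at hd
    exact hy ((Units.dvd_mul_left).1 hd)
  -- pigeonhole
  have hex : ∃ η₀ ∈ nthRootsFinset p (1 : R), (ζ - 1) ∣ a η₀ := by
    haveI : Finite (R ⧸ Ideal.span {ζ - 1}) :=
      Nat.finite_of_card_ne_zero (by rw [hcard]; exact hp.ne_zero)
    haveI := Fintype.ofFinite (R ⧸ Ideal.span {ζ - 1})
    have hinj : Set.InjOn (fun η => Ideal.Quotient.mk (Ideal.span {ζ - 1}) (a η))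
        (nthRootsFinset p (1 : R) : Set R) := by
      intro η₁ h₁ η₂ h₂ h
      by_contra hne
      apply hndiff η₁ h₁ η₂ h₂ hne
      rw [← Ideal.mem_span_singleton, ← Ideal.Quotient.eq]
      exact h
    have himg : ((nthRootsFinset p (1 : R)).image
        (fun η => Ideal.Quotient.mk (Ideal.span {ζ - 1}) (a η))) = Finset.univ := by
      apply Finset.eq_univ_of_card
      rw [Finset.card_image_of_injOn hinj, hμcard, ← Nat.card_eq_fintype_card, hcard]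
    have h0 : (0 : R ⧸ Ideal.span {ζ - 1}) ∈ (nthRootsFinset p (1 : R)).image
        (fun η => Ideal.Quotient.mk (Ideal.span {ζ - 1}) (a η)) := by
      rw [himg]; exact Finset.mem_univ _
    obtain ⟨η₀, hη₀, h⟩ := Finset.mem_image.1 h0
    exact ⟨η₀, hη₀, by rwa [Ideal.Quotient.eq_zero_iff_mem, Ideal.mem_span_singleton] at h⟩
  obtain ⟨η₀, hη₀, hη₀d⟩ := hex
  have hnd : ∀ η ∈ nthRootsFinset p (1 : R), η ≠ η₀ → ¬ (ζ - 1) ∣ a η := by
    intro η hη hne hd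
    exact hndiff η hη η₀ hη₀ hne (dvd_sub hd hη₀d)
  -- (d) the product of the quotients
  have hprodA : ∏ η ∈ nthRootsFinset p (1 : R), a η = ε * (ζ - 1) ^ (p * (m - 1)) * z ^ p := by
    have hpm : p * m = p + p * (m - 1) := by
      obtain ⟨k, rfl⟩ : ∃ k, m = k + 1 := ⟨m - 1, by omega⟩
      simp [Nat.mul_succ, add_comm]
    have h1 : (ζ - 1) ^ p * ∏ η ∈ nthRootsFinset p (1 : R), a η =
        (ζ - 1) ^ p * (ε * (ζ - 1) ^ (p * (m - 1)) * z ^ p) := by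
      calc (ζ - 1) ^ p * ∏ η ∈ nthRootsFinset p (1 : R), a η
          = ∏ η ∈ nthRootsFinset p (1 : R), ((ζ - 1) * a η) := by
            rw [Finset.prod_mul_distrib, Finset.prod_const, hμcard]
        _ = ∏ η ∈ nthRootsFinset p (1 : R), (x + η * y) :=
            Finset.prod_congr rfl (fun η hη => (ha η hη).symm)
        _ = ε * (ζ - 1) ^ (p * m) * z ^ p := by rw [← hprod, H]
        _ = (ζ - 1) ^ p * (ε * (ζ - 1) ^ (p * (m - 1)) * z ^ p) := by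
            rw [hpm, pow_add]; ring
    exact mul_left_cancel₀ (pow_ne_zero _ hl.ne_zero) h1
  have hcop : ∀ η₁ ∈ nthRootsFinset p (1 : R), ∀ η₂ ∈ nthRootsFinset p (1 : R), η₁ ≠ η₂ →
      IsCoprime (a η₁) (a η₂) := by
    intro η₁ h₁ η₂ h₂ hne
    obtain ⟨u, ey, ex⟩ := hdiff η₁ h₁ η₂ h₂ hne
    obtain ⟨s, t, hst⟩ := hxy
    refine ⟨(↑u⁻¹ : R) * (t - s * η₂), (↑u⁻¹ : R) * (s * η₁ - t), ?_⟩
    calc (↑u⁻¹ : R) * (t - s * η₂) * a η₁ + (↑u⁻¹ : R) * (s * η₁ - t) * a η₂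
        = (↑u⁻¹ : R) * (s * (η₁ * a η₂ - η₂ * a η₁) + t * (a η₁ - a η₂)) := by ring
      _ = (↑u⁻¹ : R) * (s * (u * x) + t * (u * y)) := by rw [ex, ey]
      _ = ((↑u⁻¹ : R) * u) * (s * x + t * y) := by ring
      _ = 1 := by rw [Units.inv_mul, one_mul, hst]
  have hcopErase : ∀ η ∈ nthRootsFinset p (1 : R),
      IsCoprime (a η) (∏ η' ∈ (nthRootsFinset p (1 : R)).erase η, a η') := by
    intro η hη
    exact IsCoprime.prod_right (fun η' hη' =>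
      hcop η hη η' (Finset.mem_of_mem_erase hη') (Finset.ne_of_mem_erase hη').symm)
  have hlB : ¬ (ζ - 1) ∣ ∏ η ∈ (nthRootsFinset p (1 : R)).erase η₀, a η := by
    intro h
    obtain ⟨η, hη, hd⟩ := (Prime.dvd_finsetProd_iff hl _).1 h
    exact hnd η (Finset.mem_of_mem_erase hη) (Finset.ne_of_mem_erase hη) hd
  have hAB : a η₀ * ∏ η ∈ (nthRootsFinset p (1 : R)).erase η₀, a η =
      ε * (ζ - 1) ^ (p * (m - 1)) * z ^ p := by
    rw [← hprodA, Finset.mul_prod_erase _ a hη₀]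
  have hεz : ¬ (ζ - 1) ∣ (ε : R) * z ^ p := by
    intro h
    rcases hl.dvd_or_dvd h with h | h
    · exact hl.not_isUnit (isUnit_of_dvd_unit h ε.isUnit)
    · exact hz (hl.dvd_of_dvd_pow h)
  have hm2 : 2 ≤ m := by
    by_contra hlt
    have hm1 : m = 1 := by omega
    subst hm1
    simp only [Nat.sub_self, mul_zero, pow_zero, mul_one] at hAB
    exact hεz (hAB ▸ (hη₀d.mul_right _))
  refine ⟨hm2, ?_⟩
  -- (f) `p`-th powers
  have hpw : ∀ η ∈ nthRootsFinset p (1 : R), η ≠ η₀ →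
      ∃ (ρ : R) (e : Rˣ), a η = e * ρ ^ p ∧ ¬ (ζ - 1) ∣ ρ := by
    intro η hη hne
    have hassoc : Associated (((ζ - 1) ^ (m - 1) * z) ^ p)
        (a η * ∏ η' ∈ (nthRootsFinset p (1 : R)).erase η, a η') := by
      rw [Finset.mul_prod_erase _ a hη, hprodA]
      refine ⟨ε, ?_⟩
      rw [mul_pow, ← pow_mul, mul_comm (m - 1) p]; ring
    obtain ⟨ρ, e, he⟩ := exists_associated_pow_of_associated_pow_mul (hcopErase η hη) hassoc
    refine ⟨ρ, e, by rw [← he]; ring, fun hd => hnd η hη hne ?_⟩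
    rw [← he]
    exact (dvd_pow hd hp.ne_zero).mul_right _
  have hw : ∃ (ρ : R) (e : Rˣ), a η₀ = e * (ζ - 1) ^ (p * (m - 1)) * ρ ^ p ∧ ¬ (ζ - 1) ∣ ρ := by
    have h1 : (ζ - 1) ^ (p * (m - 1)) ∣ a η₀ :=
      hl.pow_dvd_of_dvd_mul_right _ hlB (hAB ▸ ⟨ε * z ^ p, by ring⟩)
    obtain ⟨w, hw⟩ := h1
    have hwB : w * ∏ η ∈ (nthRootsFinset p (1 : R)).erase η₀, a η = ε * z ^ p := by
      apply mul_left_cancel₀ (pow_ne_zero (p * (m - 1)) hl.ne_zero)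
      calc (ζ - 1) ^ (p * (m - 1)) * (w * ∏ η ∈ (nthRootsFinset p (1 : R)).erase η₀, a η)
          = a η₀ * ∏ η ∈ (nthRootsFinset p (1 : R)).erase η₀, a η := by rw [hw]; ring
        _ = (ζ - 1) ^ (p * (m - 1)) * (ε * z ^ p) := by rw [hAB]; ring
    have hlw : ¬ (ζ - 1) ∣ w := fun h => hεz (hwB ▸ h.mul_right _)
    have hc : IsCoprime w (∏ η ∈ (nthRootsFinset p (1 : R)).erase η₀, a η) := by
      have := hcopErase η₀ hη₀
      rw [hw] at this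
      exact this.of_mul_left_right
    have hassoc : Associated (z ^ p)
        (w * ∏ η ∈ (nthRootsFinset p (1 : R)).erase η₀, a η) := ⟨ε, by rw [hwB]; ring⟩
    obtain ⟨ρ, e, he⟩ := exists_associated_pow_of_associated_pow_mul hc hassoc
    refine ⟨ρ, e, by rw [hw, ← he]; ring, fun hd => hlw ?_⟩
    rw [← he]
    exact (dvd_pow hd hp.ne_zero).mul_right _
  -- (g) the three roots `η₀`, `η₀ ζ`, `η₀ ζ⁻¹`
  have hζp : ζ ^ p = 1 := hζ.pow_eq_one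
  have hη₀p : η₀ ^ p = 1 := (mem_nthRootsFinset hp.pos 1).1 hη₀
  have hη₀ne : η₀ ≠ 0 := by
    rintro rfl
    rw [zero_pow hp.ne_zero] at hη₀p
    exact zero_ne_one hη₀p
  have hζζ' : ζ * ζ ^ (p - 1) = 1 := by
    rw [← pow_succ', Nat.sub_add_cancel hp.one_le, hζp]
  have hζ1 : ζ ≠ 1 := hζ.ne_one hp.one_lt
  have h₁ : η₀ * ζ ∈ nthRootsFinset p (1 : R) := by
    rw [mem_nthRootsFinset hp.pos, mul_pow, hη₀p, hζp, one_mul]
  have h₂ : η₀ * ζ ^ (p - 1) ∈ nthRootsFinset p (1 : R) := by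
    rw [mem_nthRootsFinset hp.pos, mul_pow, hη₀p, one_mul, ← pow_mul, Nat.mul_comm, pow_mul, hζp,
      one_pow]
  have hne₁ : η₀ * ζ ≠ η₀ := by
    intro h
    exact hζ1 (mul_left_cancel₀ hη₀ne (by rw [h, mul_one]))
  have hne₂ : η₀ * ζ ^ (p - 1) ≠ η₀ := by
    intro h
    have : ζ ^ (p - 1) = 1 := mul_left_cancel₀ hη₀ne (by rw [h, mul_one])
    rw [this, mul_one] at hζζ'
    exact hζ1 hζζ'
  have hne₁₂ : η₀ * ζ ≠ η₀ * ζ ^ (p - 1) := by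
    intro h
    have h' : ζ = ζ ^ (p - 1) := mul_left_cancel₀ hη₀ne h
    have : ζ ^ 2 = 1 := by rw [pow_two]; nth_rewrite 2 [h']; exact hζζ'
    have := (hζ.pow_eq_one_iff_dvd 2).1 this
    have := Nat.le_of_dvd (by norm_num) this
    omega
  obtain ⟨ρ₁, e₁, he₁, hρ₁⟩ := hpw _ h₁ hne₁
  obtain ⟨ρ₂, e₂, he₂, hρ₂⟩ := hpw _ h₂ hne₂
  obtain ⟨ρ₀, e₀, he₀, hρ₀⟩ := hw
  have hrel : a (η₀ * ζ) + ζ * a (η₀ * ζ ^ (p - 1)) = (1 + ζ) * a η₀ := by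
    apply mul_left_cancel₀ hl.ne_zero
    calc (ζ - 1) * (a (η₀ * ζ) + ζ * a (η₀ * ζ ^ (p - 1)))
        = (x + η₀ * ζ * y) + ζ * (x + η₀ * ζ ^ (p - 1) * y) := by
          rw [ha _ h₁, ha _ h₂]; ring
      _ = (1 + ζ) * x + η₀ * ζ * y + η₀ * (ζ * ζ ^ (p - 1)) * y := by ring
      _ = (1 + ζ) * (x + η₀ * y) := by rw [hζζ']; ring
      _ = (ζ - 1) * ((1 + ζ) * a η₀) := by rw [ha _ hη₀]; ring
  -- units
  obtain ⟨uζ, huζ⟩ : IsUnit ζ := hζ.isUnit hp.ne_zero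
  obtain ⟨u1, hu1⟩ : IsUnit (1 + ζ) := by
    have h := hζ.geom_sum_isUnit hp.two_le
      (j := 2) ((Nat.coprime_primes Nat.prime_two hp).2 (Ne.symm hp2))
    simpa [Finset.sum_range_succ] using h
  -- the new equation
  have hnew : ρ₁ ^ p + ((uζ * e₂ * e₁⁻¹ : Rˣ) : R) * ρ₂ ^ p =
      ((u1 * e₀ * e₁⁻¹ : Rˣ) : R) * (ζ - 1) ^ (p * (m - 1)) * ρ₀ ^ p := by
    have h3 : (e₁ : R) * (ρ₁ ^ p + ((uζ * e₂ * e₁⁻¹ : Rˣ) : R) * ρ₂ ^ p) =
        e₁ * (((u1 * e₀ * e₁⁻¹ : Rˣ) : R) * (ζ - 1) ^ (p * (m - 1)) * ρ₀ ^ p) := by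
      have hee : (e₁ : R) * ((e₁⁻¹ : Rˣ) : R) = 1 := Units.mul_inv e₁
      calc (e₁ : R) * (ρ₁ ^ p + ((uζ * e₂ * e₁⁻¹ : Rˣ) : R) * ρ₂ ^ p)
          = e₁ * ρ₁ ^ p + ((e₁ : R) * ((e₁⁻¹ : Rˣ) : R)) * ((uζ : R) * (e₂ * ρ₂ ^ p)) := by
            push_cast; ring
        _ = a (η₀ * ζ) + ζ * a (η₀ * ζ ^ (p - 1)) := by rw [hee, he₁, he₂, huζ]; ring
        _ = (1 + ζ) * a η₀ := hrel
        _ = ((e₁ : R) * ((e₁⁻¹ : Rˣ) : R)) *
              ((u1 : R) * (e₀ * (ζ - 1) ^ (p * (m - 1)) * ρ₀ ^ p)) := by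
            rw [hee, he₀, hu1]; ring
        _ = e₁ * (((u1 * e₀ * e₁⁻¹ : Rˣ) : R) * (ζ - 1) ^ (p * (m - 1)) * ρ₀ ^ p) := by
            push_cast; ring
    exact mul_left_cancel₀ e₁.ne_zero h3
  -- (h) Kummer's lemma applies to `η' = uζ * e₂ * e₁⁻¹`
  have hpdvd : (p : R) ∣ (ζ - 1) ^ (p * (m - 1)) :=
    hpl.trans (pow_dvd_pow _ (by
      have : p * 1 ≤ p * (m - 1) := Nat.mul_le_mul_left p (by omega)
      omega))
  have hlp : (ζ - 1) ∣ (p : R) := hζ.sub_one_dvd_natCast hp.one_lt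
  obtain ⟨n₁, hn₁⟩ := hpow ρ₁
  obtain ⟨n₂, hn₂⟩ := hpow ρ₂
  have hsum : (p : R) ∣ (n₁ : R) + ((uζ * e₂ * e₁⁻¹ : Rˣ) : R) * (n₂ : R) := by
    have h4 : (p : R) ∣ ρ₁ ^ p + ((uζ * e₂ * e₁⁻¹ : Rˣ) : R) * ρ₂ ^ p := by
      rw [hnew]
      exact Dvd.dvd.mul_right (Dvd.dvd.mul_left hpdvd _) _
    have e : (n₁ : R) + ((uζ * e₂ * e₁⁻¹ : Rˣ) : R) * (n₂ : R) =
        (ρ₁ ^ p + ((uζ * e₂ * e₁⁻¹ : Rˣ) : R) * ρ₂ ^ p) - (ρ₁ ^ p - n₁) -
          ((uζ * e₂ * e₁⁻¹ : Rˣ) : R) * (ρ₂ ^ p - n₂) := by ring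
    rw [e]
    exact dvd_sub (dvd_sub h4 hn₁) (hn₂.mul_left _)
  have hn₂l : ¬ (ζ - 1) ∣ (n₂ : R) := by
    intro h
    have : (ζ - 1) ∣ ρ₂ ^ p := by
      have e : ρ₂ ^ p = (ρ₂ ^ p - n₂) + n₂ := by ring
      rw [e]
      exact dvd_add (hlp.trans hn₂) h
    exact hρ₂ (hl.dvd_of_dvd_pow this)
  have hn₂p : ¬ (p : ℤ) ∣ n₂ := by
    rintro ⟨k, hk⟩
    apply hn₂l
    rw [hk]
    push_cast
    exact hlp.mul_right _
  obtain ⟨s, t, hst⟩ : IsCoprime (p : ℤ) n₂ :=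
    (Prime.coprime_iff_not_dvd (Nat.prime_iff_prime_int.mp hp)).2 hn₂p
  have hstR : (s : R) * (p : R) + (t : R) * (n₂ : R) = 1 := by
    have := congrArg (Int.cast : ℤ → R) hst
    push_cast at this
    exact this
  obtain ⟨v, hv⟩ := hKL (uζ * e₂ * e₁⁻¹) ⟨-(t * n₁), by
    have e : ((uζ * e₂ * e₁⁻¹ : Rˣ) : R) - ((-(t * n₁) : ℤ) : R) =
        (p : R) * (s * ((uζ * e₂ * e₁⁻¹ : Rˣ) : R)) +
          t * ((n₁ : R) + ((uζ * e₂ * e₁⁻¹ : Rˣ) : R) * (n₂ : R)) +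
          ((uζ * e₂ * e₁⁻¹ : Rˣ) : R) * (1 - ((s : R) * (p : R) + (t : R) * (n₂ : R))) := by
      push_cast; ring
    rw [e, hstR, sub_self, mul_zero, add_zero]
    exact dvd_add (dvd_mul_right _ _) (hsum.mul_left _)⟩
  -- the new solution
  refine ⟨ρ₁, v * ρ₂, ρ₀, u1 * e₀ * e₁⁻¹, ?_, hρ₀, ?_, ?_⟩
  · intro h
    exact hρ₂ ((Units.dvd_mul_left).1 h)
  · have h5 : IsCoprime (a (η₀ * ζ)) (a (η₀ * ζ ^ (p - 1))) := hcop _ h₁ _ h₂ hne₁₂
    rw [he₁, he₂] at h5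
    have h6 : IsCoprime (ρ₁ ^ p) (ρ₂ ^ p) :=
      (isCoprime_mul_unit_left_left e₁.isUnit _ _).1
        ((isCoprime_mul_unit_left_right e₂.isUnit _ _).1 h5)
    have h7 : IsCoprime ρ₁ ρ₂ := (IsCoprime.pow_iff hp.pos hp.pos).1 h6
    exact (isCoprime_mul_unit_left_right v.isUnit _ _).2 h7
  · rw [mul_pow, ← hnew, hv]
    push_cast
    ring

/-- The descent: the generalised equation has no solution. -/
theorem kd_descent [IsPrincipalIdealRing R] {p : ℕ} (hp : p.Prime) (hp2 : p ≠ 2) {ζ : R}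
    (hζ : IsPrimitiveRoot ζ p) (hl : Prime (ζ - 1))
    (hcard : Nat.card (R ⧸ Ideal.span {ζ - 1}) = p)
    (hpl : (p : R) ∣ (ζ - 1) ^ (p - 1))
    (hpow : ∀ a : R, ∃ n : ℤ, (p : R) ∣ a ^ p - n)
    (hKL : ∀ u : Rˣ, (∃ n : ℤ, (p : R) ∣ (u : R) - n) → ∃ v : Rˣ, u = v ^ p) :
    ∀ m : ℕ, 1 ≤ m → ∀ (x y z : R) (ε : Rˣ), ¬ (ζ - 1) ∣ y → ¬ (ζ - 1) ∣ z → IsCoprime x y →
      x ^ p + y ^ p ≠ ε * (ζ - 1) ^ (p * m) * z ^ p := by
  intro m
  induction m with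
  | zero => intro h; omega
  | succ k ih =>
    intro _ x y z ε hy hz hxy H
    obtain ⟨h2, x', y', z', ε', hy', hz', hxy', H'⟩ :=
      kd_step hp hp2 hζ hl hcard hpl hpow hKL (Nat.succ_le_succ (Nat.zero_le k)) hy hz hxy H
    exact ih (by omega) x' y' z' ε' hy' hz' hxy' (by simpa using H')

end Abstract

section Cyclotomic

variable {p : ℕ} [hpf : Fact p.Prime] (K : Type*) [Field K] [NumberField K]
  [IsCyclotomicExtension {p} ℚ K]

/-- In `ℤ[ζ_p]`, every `p`-th power is congruent to a rational integer modulo `p`. -/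
theorem kd_exists_int_sub_pow_dvd {ζ : K} (hζ : IsPrimitiveRoot ζ p) (α : 𝓞 K) :
    ∃ n : ℤ, (p : 𝓞 K) ∣ α ^ p - n := by
  classical
  have hp := hpf.out
  haveI : NeZero p := ⟨hp.ne_zero⟩
  set pb := hζ.integralPowerBasis with hpb
  have hgen : pb.gen = hζ.toInteger := hζ.integralPowerBasis_gen
  have hζp : hζ.toInteger ^ p = 1 := hζ.toInteger_isPrimitiveRoot.pow_eq_one
  obtain ⟨c, hα⟩ : ∃ c : Fin pb.dim → ℤ, α = ∑ i, (c i : 𝓞 K) * hζ.toInteger ^ (i : ℕ) := by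
    refine ⟨fun i => pb.basis.repr α i, ?_⟩
    conv_lhs => rw [← pb.basis.sum_repr α]
    refine Finset.sum_congr rfl fun i _ => ?_
    rw [pb.coe_basis, hgen, zsmul_eq_mul]
  obtain ⟨r, hr⟩ := kd_sum_pow_prime hp Finset.univ
    (fun i => (c i : 𝓞 K) * hζ.toInteger ^ (i : ℕ))
  refine ⟨∑ i, (c i) ^ p, r, ?_⟩
  rw [hα, hr]
  have : ∀ i, ((c i : 𝓞 K) * hζ.toInteger ^ (i : ℕ)) ^ p = ((c i ^ p : ℤ) : 𝓞 K) := by
    intro i
    rw [mul_pow, ← pow_mul, mul_comm (i : ℕ) p, pow_mul, hζp, one_pow, mul_one]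
    push_cast
    rfl
  simp_rw [this]
  push_cast
  ring

/-- **Kummer's descent**: case II of Fermat's Last Theorem for a prime `p ≥ 5` such that
`ℤ[ζ_p]` is a principal ideal domain in which Kummer's lemma holds. -/
theorem caseII_of_pid_of_kummerLemma {p : ℕ} [Fact p.Prime] (hp5 : 5 ≤ p) (K : Type*) [Field K]
    [NumberField K] [IsCyclotomicExtension {p} ℚ K] (hpid : IsPrincipalIdealRing (𝓞 K))
    (hKL : KummerLemmaHolds p K) : CaseII p := by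
  intro a b c hc ha hb hpc hab H
  have hp : p.Prime := Fact.out
  have hp2 : p ≠ 2 := by omega
  haveI : NeZero p := ⟨hp.ne_zero⟩
  haveI := hpid
  have hζ := IsCyclotomicExtension.zeta_spec p ℚ K
  have hζ' := hζ.toInteger_isPrimitiveRoot
  have hl : Prime (hζ.toInteger - 1) := hζ.zeta_sub_one_prime'
  have hcard : Nat.card (𝓞 K ⧸ Ideal.span {hζ.toInteger - 1}) = p := by
    rw [hζ.card_quotient_toInteger_sub_one, hζ.norm_toInteger_sub_one_of_prime_ne_two' hp2]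
    simp
  have hpl : (p : 𝓞 K) ∣ (hζ.toInteger - 1) ^ (p - 1) :=
    (IsCyclotomicExtension.Rat.associated_zeta_sub_one_pow_prime p hζ).symm.dvd
  have hlp : (hζ.toInteger - 1) ∣ (p : 𝓞 K) := hζ.toInteger_sub_one_dvd_prime'
  have hcR : ((c : ℤ) : 𝓞 K) ≠ 0 := by exact_mod_cast hc
  obtain ⟨m, z, hz, hcz⟩ : ∃ (m : ℕ) (z : 𝓞 K), ¬ (hζ.toInteger - 1) ∣ z ∧
      ((c : ℤ) : 𝓞 K) = (hζ.toInteger - 1) ^ m * z :=
    let ⟨z, h1, h2⟩ :=
      (FiniteMultiplicity.of_not_isUnit hl.not_isUnit hcR).exists_eq_pow_mul_and_not_dvd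
    ⟨_, z, h2, h1⟩
  have hm : 1 ≤ m := by
    by_contra h
    have hm0 : m = 0 := by omega
    subst hm0
    rw [pow_zero, one_mul] at hcz
    apply hz
    rw [← hcz]
    obtain ⟨k, hk⟩ := hpc
    rw [hk]
    push_cast
    exact hlp.mul_right _
  have hbR : ¬ (hζ.toInteger - 1) ∣ ((b : ℤ) : 𝓞 K) := by
    intro h
    obtain ⟨s, t, hst⟩ : IsCoprime (p : ℤ) b :=
      (Prime.coprime_iff_not_dvd (Nat.prime_iff_prime_int.mp hp)).2 hb
    have h1 : (hζ.toInteger - 1) ∣ (s : 𝓞 K) * (p : 𝓞 K) + (t : 𝓞 K) * ((b : ℤ) : 𝓞 K) :=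
      dvd_add (Dvd.dvd.mul_left hlp _) (Dvd.dvd.mul_left h _)
    have e : (s : 𝓞 K) * (p : 𝓞 K) + (t : 𝓞 K) * ((b : ℤ) : 𝓞 K) = 1 := by
      have := congrArg (Int.cast : ℤ → 𝓞 K) hst
      push_cast at this
      exact this
    rw [e] at h1
    exact hl.not_isUnit (isUnit_of_dvd_one h1)
  refine kd_descent hp hp2 hζ' hl hcard hpl (kd_exists_int_sub_pow_dvd K hζ) hKL m hm
    ((a : ℤ) : 𝓞 K) ((b : ℤ) : 𝓞 K) z 1 hbR hz (IsCoprime.intCast hab) ?_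
  have h1 := congrArg (Int.cast : ℤ → 𝓞 K) H
  push_cast at h1
  rw [h1, hcz, mul_pow, ← pow_mul, mul_comm m p, Units.val_one, one_mul]

end Cyclotomic

end Fermat.Agent.Kummer
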