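import Mathlib
import Fermat.Prelude.Def_FLTPrelim_FreyPackage

/-!
# Kummer project: a Frey package contradicts Fermat's Last Theorem for its exponent
-/

set_option autoImplicit false

namespace Fermat.Agent.Kummer

/-- A Frey package for the exponent `p` contradicts Fermat's Last Theorem for `p`. -/
theorem false_of_freyPackage_of_flt (P : FreyPackage) (h : FermatLastTheoremFor P.p) : False := by
  rw [fermatLastTheoremFor_iff_int] at h
  exact h P.a P.b P.c P.ha0 P.hb0 P.hc0 P.hFLT

end Fermat.Agent.Kummer
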