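import Mathlib
import Fermat.Agent.Kummer.Defs

/-!
# Kummer project: Fermat's Last Theorem for an odd prime exponent from case I and case II
(adaptation of Mathlib's `fermatLastTheoremThree_of_three_dvd_only_c`).
-/

set_option autoImplicit false

namespace Fermat.Agent.Kummer

private lemma glue_dvd_b {p : ℕ} (hp : p.Prime) (hp2 : p ≠ 2) {a b c : ℤ} (ha : a ≠ 0)
    (Hgcd : Finset.gcd {a, b, c} id = 1) (hpa : (p : ℤ) ∣ a) (HF : a ^ p + b ^ p + c ^ p = 0)
    (H : CaseII p) : (p : ℤ) ∣ b := by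
  have hodd : Odd p := hp.odd_of_ne_two hp2
  have hpp : Prime (p : ℤ) := Nat.prime_iff_prime_int.mp hp
  have hbc : IsCoprime (-b) (-c) := by
    refine IsCoprime.neg_neg ?_
    rw [add_comm (a ^ p), add_assoc, add_comm (a ^ p), ← add_assoc] at HF
    refine isCoprime_of_gcd_eq_one_of_FLT ?_ HF
    convert Hgcd using 2
    rw [Finset.pair_comm, Finset.insert_comm]
  by_contra! hpb
  by_cases hpc : (p : ℤ) ∣ c
  · apply hpb
    rw [add_assoc, add_comm (b ^ p), ← add_assoc] at HF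
    exact dvd_c_of_prime_of_dvd_a_of_dvd_b_of_FLT hpp hpa hpc HF
  · refine H (-b) (-c) a ha (by simpa using hpb) (by simpa using hpc) hpa hbc ?_
    rw [add_eq_zero_iff_eq_neg, ← hodd.neg_pow] at HF
    rw [hodd.neg_pow b, ← HF]
    ring

open Finset in
private lemma glue_of_dvd_a {p : ℕ} (hp : p.Prime) (hp2 : p ≠ 2) {a b c : ℤ} (ha : a ≠ 0)
    (hpa : (p : ℤ) ∣ a) (Hgcd : Finset.gcd {a, b, c} id = 1) (H : CaseII p) :
    a ^ p + b ^ p + c ^ p ≠ 0 := by
  have hpp : Prime (p : ℤ) := Nat.prime_iff_prime_int.mp hp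
  intro HF
  apply hpp.not_dvd_one
  rw [← Hgcd]
  refine dvd_gcd (fun x hx ↦ ?_)
  simp only [mem_insert, mem_singleton] at hx
  have hpb : (p : ℤ) ∣ b := by
    refine glue_dvd_b hp hp2 ha ?_ hpa HF H
    simp only [← Hgcd, gcd_insert, gcd_singleton, id_eq, ← Int.abs_eq_normalize]
  rcases hx with hx | hx | hx
  · exact hx ▸ hpa
  · exact hx ▸ hpb
  · simpa [hx] using dvd_c_of_prime_of_dvd_a_of_dvd_b_of_FLT hpp hpa hpb HF

open Finset Int in
/-- Fermat's Last Theorem for an odd prime exponent `p` follows from case I and case II. -/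
theorem flt_of_caseI_of_caseII {p : ℕ} (hp : p.Prime) (hp2 : p ≠ 2) (hI : CaseI p)
    (hII : CaseII p) : FermatLastTheoremFor p := by
  have hodd : Odd p := hp.odd_of_ne_two hp2
  have hpp : Prime (p : ℤ) := Nat.prime_iff_prime_int.mp hp
  rw [fermatLastTheoremFor_iff_int]
  refine fermatLastTheoremWith_of_fermatLastTheoremWith_coprime (fun a b c ha hb hc Hgcd hF ↦ ?_)
  by_cases h1 : (p : ℤ) ∣ a * b * c
  swap
  · exact hI a b c h1 hF
  rw [hpp.dvd_mul, hpp.dvd_mul] at h1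
  rw [← sub_eq_zero, sub_eq_add_neg, ← hodd.neg_pow] at hF
  rcases h1 with (hpa | hpb) | hpc
  · refine glue_of_dvd_a hp hp2 ha hpa ?_ hII hF
    simp only [← Hgcd, gcd_insert, gcd_singleton, id_eq, ← abs_eq_normalize, abs_neg]
  · rw [add_comm (a ^ p)] at hF
    refine glue_of_dvd_a hp hp2 hb hpb ?_ hII hF
    simp only [← Hgcd, insert_comm, gcd_insert, gcd_singleton, id_eq, ← abs_eq_normalize, abs_neg]
  · rw [add_comm _ ((-c) ^ p), ← add_assoc] at hF
    refine glue_of_dvd_a hp hp2 (neg_ne_zero.2 hc) (by simpa using hpc) ?_ hII hF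
    rw [Finset.insert_comm (-c), Finset.pair_comm (-c) b]
    simp only [← Hgcd, gcd_insert, gcd_singleton, id_eq, ← abs_eq_normalize, abs_neg]

end Fermat.Agent.Kummer
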