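import Mathlib

/-!
# Kummer's lemma: the abstract counting step
-/

open NumberField

namespace Fermat.Agent.Kummer

private theorem klAbs_toAdd_prod {E : Type*} [CommGroup E] {p : ℕ} [Fact p.Prime]
    {V : Type*} [AddCommGroup V] [Module (ZMod p) V]
    (Φ : E →* Multiplicative V) (m : ℕ) (g : Fin m → E) (n : Fin m → ℤ) (v : E) :
    Multiplicative.toAdd (Φ ((∏ i, g i ^ n i) * v ^ p)) =
      ∑ i, ((n i : ℤ) : ZMod p) • Multiplicative.toAdd (Φ (g i)) := by
  rw [map_mul, map_pow, map_prod, toAdd_mul, toAdd_pow, toAdd_prod]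
  have hp : (p : ℕ) • Multiplicative.toAdd (Φ v) = 0 := by
    rw [← Nat.cast_smul_eq_nsmul (ZMod p), ZMod.natCast_self, zero_smul]
  rw [hp, add_zero]
  refine Finset.sum_congr rfl fun i _ => ?_
  rw [map_zpow, toAdd_zpow, Int.cast_smul_eq_zsmul]

theorem kl_abstract {E : Type*} [CommGroup E] {p : ℕ} [Fact p.Prime]
    {V : Type*} [AddCommGroup V] [Module (ZMod p) V]
    (Φ : E →* Multiplicative V) (m : ℕ) (g : Fin m → E)
    (hgen : ∀ u : E, ∃ (n : Fin m → ℤ) (v : E), u = (∏ i, g i ^ n i) * v ^ p)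
    (e : Fin m → E)
    (hind : LinearIndependent (ZMod p) (fun j => Multiplicative.toAdd (Φ (e j))))
    (u : E) (hu : Φ u = 1) : ∃ v : E, u = v ^ p := by
  classical
  set φe : Fin m → V := fun j => Multiplicative.toAdd (Φ (e j)) with hφe
  set φg : Fin m → V := fun j => Multiplicative.toAdd (Φ (g j)) with hφg
  -- each `φ (e j)` lies in the span of the `φ (g i)`
  have hmem : ∀ j, φe j ∈ Submodule.span (ZMod p) (Set.range φg) := by
    intro j
    obtain ⟨n, v, hv⟩ := hgen (e j)
    have : φe j = ∑ i, ((n i : ℤ) : ZMod p) • φg i := by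
      rw [hφe]
      simp only
      rw [hv]
      exact klAbs_toAdd_prod Φ m g n v
    rw [this]
    exact Submodule.sum_mem _ fun i _ =>
      Submodule.smul_mem _ _ (Submodule.subset_span (Set.mem_range_self i))
  have hle : Submodule.span (ZMod p) (Set.range φe) ≤ Submodule.span (ZMod p) (Set.range φg) := by
    rw [Submodule.span_le]
    rintro _ ⟨j, rfl⟩
    exact hmem j
  have hfe : Module.finrank (ZMod p) (Submodule.span (ZMod p) (Set.range φe)) = m := by
    rw [finrank_span_eq_card hind, Fintype.card_fin]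
  have hfg_le : (Set.finrank (ZMod p) (Set.range φg)) ≤ m := by
    have := finrank_range_le_card (R := ZMod p) φg
    rwa [Fintype.card_fin] at this
  have hfg_ge : m ≤ Module.finrank (ZMod p) (Submodule.span (ZMod p) (Set.range φg)) := by
    have : Module.Finite (ZMod p) (Submodule.span (ZMod p) (Set.range φg)) :=
      FiniteDimensional.span_of_finite _ (Set.finite_range φg)
    have h := Submodule.finrank_mono hle
    rw [hfe] at h
    exact h
  have hgind : LinearIndependent (ZMod p) φg := by
    rw [linearIndependent_iff_card_eq_finrank_span, Fintype.card_fin]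
    exact le_antisymm hfg_ge hfg_le
  -- now decompose `u`
  obtain ⟨n, v, hv⟩ := hgen u
  have h0 : ∑ i, ((n i : ℤ) : ZMod p) • φg i = 0 := by
    rw [← klAbs_toAdd_prod Φ m g n v, ← hv, hu]
    rfl
  have hn : ∀ i, ((n i : ℤ) : ZMod p) = 0 := by
    intro i
    exact (Fintype.linearIndependent_iff.mp hgind) _ h0 i
  have hdvd : ∀ i, ∃ k : ℤ, n i = p * k := by
    intro i
    have := (ZMod.intCast_zmod_eq_zero_iff_dvd (n i) p).mp (hn i)
    exact this
  choose k hk using hdvd
  refine ⟨(∏ i, g i ^ k i) * v, ?_⟩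
  rw [hv, mul_pow, ← Finset.prod_pow]
  congr 1
  refine Finset.prod_congr rfl fun i _ => ?_
  rw [hk i, mul_comm, zpow_mul, zpow_natCast]

end Fermat.Agent.Kummer
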