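import Mathlib
import Fermat.Agent.Kummer.Defs

/-!
# Kummer's lemma, dlog core

`KLTrunc p n = (ZMod p)[X] / (X^n)`; reduction `klPsi : 𝓞 K → KLTrunc p (p - 2 + 1)` sending `ζ` to
`1 + X`; derivative `klD`; logarithmic derivative `klDlog` on units.
-/

open NumberField Polynomial

namespace Fermat.Agent.Kummer

/-- truncated polynomial ring `(ZMod p)[X] / (X^n)` -/
abbrev KLTrunc (p n : ℕ) : Type := (ZMod p)[X] ⧸ Ideal.span {(X : (ZMod p)[X]) ^ n}

/-- the quotient map -/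
noncomputable def klMk (p n : ℕ) : (ZMod p)[X] →+* KLTrunc p n := Ideal.Quotient.mk _

theorem klMk_surjective (p n : ℕ) : Function.Surjective (klMk p n) :=
  Ideal.Quotient.mk_surjective

theorem klMk_eq_zero_iff (p n : ℕ) (f : (ZMod p)[X]) : klMk p n f = 0 ↔ X ^ n ∣ f := by
  rw [klMk, Ideal.Quotient.eq_zero_iff_mem, Ideal.mem_span_singleton]

theorem klTrunc_span_le (p n : ℕ) :
    Ideal.span {(X : (ZMod p)[X]) ^ (n + 1)} ≤ Ideal.span {(X : (ZMod p)[X]) ^ n} := by
  rw [Ideal.span_singleton_le_span_singleton]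
  exact pow_dvd_pow X (Nat.le_succ n)

/-- the projection `R_{n+1} → R_n` -/
noncomputable def klProj (p n : ℕ) : KLTrunc p (n + 1) →+* KLTrunc p n :=
  Ideal.Quotient.factor (klTrunc_span_le p n)

@[simp] theorem klProj_mk (p n : ℕ) (f : (ZMod p)[X]) :
    klProj p n (klMk p (n + 1) f) = klMk p n f :=
  Ideal.Quotient.factor_mk _ _

/-- the derivative `R_{n+1} → R_n` -/
noncomputable def klD (p n : ℕ) : KLTrunc p (n + 1) →+ KLTrunc p n :=
  QuotientAddGroup.lift _
    ((klMk p n).toAddMonoidHom.comp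
      (derivative : (ZMod p)[X] →ₗ[ZMod p] (ZMod p)[X]).toAddMonoidHom)
    (by
      intro f hf
      have hf' : f ∈ Ideal.span {(X : (ZMod p)[X]) ^ (n + 1)} := hf
      rw [Ideal.mem_span_singleton] at hf'
      obtain ⟨g, rfl⟩ := hf'
      rw [AddMonoidHom.mem_ker]
      change klMk p n (derivative (X ^ (n + 1) * g)) = 0
      rw [klMk_eq_zero_iff, derivative_mul, derivative_X_pow]
      refine dvd_add ?_ ?_
      · simp only [Nat.add_sub_cancel]
        exact ⟨C ((n + 1 : ℕ) : ZMod p) * g, by ring⟩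
      · exact ⟨X * derivative g, by ring⟩)

@[simp] theorem klD_mk (p n : ℕ) (f : (ZMod p)[X]) :
    klD p n (klMk p (n + 1) f) = klMk p n (derivative f) := rfl

theorem klD_mul (p n : ℕ) (a b : KLTrunc p (n + 1)) :
    klD p n (a * b) = klProj p n a * klD p n b + klProj p n b * klD p n a := by
  obtain ⟨f, rfl⟩ := klMk_surjective p (n + 1) a
  obtain ⟨g, rfl⟩ := klMk_surjective p (n + 1) b
  rw [← map_mul, klD_mk, klD_mk, klD_mk, klProj_mk, klProj_mk, derivative_mul, map_add, map_mul,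
    map_mul]
  ring

theorem klD_intCast (p n : ℕ) (k : ℤ) : klD p n (k : KLTrunc p (n + 1)) = 0 := by
  have : (k : KLTrunc p (n + 1)) = klMk p (n + 1) (C (k : ZMod p)) := by
    simp [klMk]
  rw [this, klD_mk, derivative_C, map_zero]

end Fermat.Agent.Kummer

namespace Fermat.Agent.Kummer

theorem klMk_aeval (p n : ℕ) (f : ℤ[X]) (g : (ZMod p)[X]) :
    aeval (klMk p n g) f = klMk p n ((f.map (Int.castRingHom (ZMod p))).comp g) := by
  rw [Polynomial.comp, Polynomial.eval₂_map, Polynomial.hom_eval₂, aeval_def]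
  rfl

theorem klCyclotomic_comp (p : ℕ) [Fact p.Prime] :
    (cyclotomic p (ZMod p)).comp (1 + X) = X ^ (p - 1) := by
  have h := cyclotomic_mul_prime_pow_eq (ZMod p) (p := p) (m := 1)
    (by simpa using (Fact.out : p.Prime).one_lt.ne') (k := 1) one_pos
  simp only [pow_one, mul_one, cyclotomic_one] at h
  rw [h]
  simp

variable {p : ℕ} [Fact p.Prime] {K : Type*} [Field K] [NumberField K]
  [IsCyclotomicExtension {p} ℚ K] {ζ : K} (hζ : IsPrimitiveRoot ζ p)

theorem klPsi_aux :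
    aeval (klMk p (p - 2 + 1) (1 + X)) (minpoly ℤ hζ.integralPowerBasis.gen) = 0 := by
  have h2 : 2 ≤ p := (Fact.out : p.Prime).two_le
  rw [IsPrimitiveRoot.integralPowerBasis_gen, ← NumberField.RingOfIntegers.minpoly_coe]
  have : ((hζ.toInteger : 𝓞 K) : K) = ζ := rfl
  rw [this, ← cyclotomic_eq_minpoly hζ (Fact.out : p.Prime).pos, klMk_aeval, map_cyclotomic,
    klCyclotomic_comp, klMk_eq_zero_iff]
  exact pow_dvd_pow X (by omega)

/-- reduction modulo `p`, as a map to truncated polynomials: `ζ ↦ 1 + X`. -/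
noncomputable def klPsi : 𝓞 K →ₐ[ℤ] KLTrunc p (p - 2 + 1) :=
  hζ.integralPowerBasis.lift (klMk p (p - 2 + 1) (1 + X)) (klPsi_aux hζ)

theorem klPsi_zeta : klPsi hζ hζ.toInteger = klMk p (p - 2 + 1) (1 + X) := by
  have := hζ.integralPowerBasis.lift_gen (klMk p (p - 2 + 1) (1 + X)) (klPsi_aux hζ)
  rwa [IsPrimitiveRoot.integralPowerBasis_gen] at this

theorem klPsi_zeta_sub_one : klPsi hζ (hζ.toInteger - 1) = klMk p (p - 2 + 1) X := by
  rw [map_sub, klPsi_zeta, map_one, map_add, map_one]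
  ring

/-- value of `klPsi` on a polynomial in `ζ - 1` -/
theorem klPsi_aeval (B : ℤ[X]) :
    klPsi hζ (aeval (hζ.toInteger - 1) B) =
      klMk p (p - 2 + 1) (B.map (Int.castRingHom (ZMod p))) := by
  rw [← aeval_algHom_apply, klPsi_zeta_sub_one, klMk_aeval, comp_X]

theorem klPsi_natCast_p : klPsi hζ (p : 𝓞 K) = 0 := by
  rw [map_natCast, ← map_natCast (klMk p (p - 2 + 1))]
  have : ((p : ℕ) : (ZMod p)[X]) = 0 := by
    rw [← C_eq_natCast, ZMod.natCast_self, C_0]
  rw [this, map_zero]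

/-- the logarithmic derivative on units, additively -/
noncomputable def klDlogFun (u : (𝓞 K)ˣ) : KLTrunc p (p - 2) :=
  klProj p (p - 2) (klPsi hζ ((u⁻¹ : (𝓞 K)ˣ) : 𝓞 K)) * klD p (p - 2) (klPsi hζ (u : 𝓞 K))

theorem klDlogFun_mul (u v : (𝓞 K)ˣ) :
    klDlogFun hζ (u * v) = klDlogFun hζ u + klDlogFun hζ v := by
  unfold klDlogFun
  have hu : klProj p (p - 2) (klPsi hζ ((u⁻¹ : (𝓞 K)ˣ) : 𝓞 K)) *
      klProj p (p - 2) (klPsi hζ (u : 𝓞 K)) = 1 := by
    rw [← map_mul, ← map_mul, ← Units.val_mul, inv_mul_cancel, Units.val_one, map_one, map_one]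
  have hv : klProj p (p - 2) (klPsi hζ ((v⁻¹ : (𝓞 K)ˣ) : 𝓞 K)) *
      klProj p (p - 2) (klPsi hζ (v : 𝓞 K)) = 1 := by
    rw [← map_mul, ← map_mul, ← Units.val_mul, inv_mul_cancel, Units.val_one, map_one, map_one]
  rw [mul_inv, Units.val_mul, Units.val_mul, map_mul, map_mul, map_mul, klD_mul]
  linear_combination (klProj p (p - 2) (klPsi hζ ((v⁻¹ : (𝓞 K)ˣ) : 𝓞 K)) *
      klD p (p - 2) (klPsi hζ (v : 𝓞 K))) * hu +
    (klProj p (p - 2) (klPsi hζ ((u⁻¹ : (𝓞 K)ˣ) : 𝓞 K)) *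
      klD p (p - 2) (klPsi hζ (u : 𝓞 K))) * hv

theorem klDlogFun_one : klDlogFun hζ (1 : (𝓞 K)ˣ) = 0 := by
  have h := klDlogFun_mul hζ 1 1
  rw [mul_one] at h
  simpa using h

/-- the logarithmic derivative as a monoid homomorphism -/
noncomputable def klDlog : (𝓞 K)ˣ →* Multiplicative (KLTrunc p (p - 2)) where
  toFun u := Multiplicative.ofAdd (klDlogFun hζ u)
  map_one' := by rw [klDlogFun_one]; rfl
  map_mul' u v := by rw [klDlogFun_mul]; rfl

@[simp] theorem klDlog_apply (u : (𝓞 K)ˣ) :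
    Multiplicative.toAdd (klDlog hζ u) = klDlogFun hζ u := rfl

/-- a unit congruent to a rational integer mod `p` has trivial dlog -/
theorem klDlog_eq_one_of_dvd (u : (𝓞 K)ˣ) (n : ℤ) (h : (p : 𝓞 K) ∣ (u : 𝓞 K) - n) :
    klDlog hζ u = 1 := by
  obtain ⟨w, hw⟩ := h
  have hu : (u : 𝓞 K) = n + p * w := by rw [← hw]; ring
  have : klPsi hζ (u : 𝓞 K) = (n : KLTrunc p (p - 2 + 1)) := by
    rw [hu, map_add, map_mul, klPsi_natCast_p, zero_mul, add_zero, map_intCast]
  change Multiplicative.ofAdd (klDlogFun hζ u) = 1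
  rw [klDlogFun, this, klD_intCast, mul_zero]
  rfl

/-- computing dlog from a certificate: if `u = B(ζ - 1)` and `B * V ≡ B'` modulo `(p, X^(p-2))`
then `dlog u = V`. -/
theorem klDlogFun_eq_of_cert (u : (𝓞 K)ˣ) (B V Q S : ℤ[X])
    (hB : (u : 𝓞 K) = aeval (hζ.toInteger - 1) B)
    (hcert : B * V - derivative B = X ^ (p - 2) * Q + C (p : ℤ) * S) :
    klDlogFun hζ u = klMk p (p - 2) (V.map (Int.castRingHom (ZMod p))) := by
  have hu : klProj p (p - 2) (klPsi hζ ((u⁻¹ : (𝓞 K)ˣ) : 𝓞 K)) *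
      klProj p (p - 2) (klPsi hζ (u : 𝓞 K)) = 1 := by
    rw [← map_mul, ← map_mul, ← Units.val_mul, inv_mul_cancel, Units.val_one, map_one, map_one]
  have hψ : klPsi hζ (u : 𝓞 K) = klMk p (p - 2 + 1) (B.map (Int.castRingHom (ZMod p))) := by
    rw [hB, klPsi_aeval]
  have key : klMk p (p - 2) (derivative (B.map (Int.castRingHom (ZMod p)))) =
      klMk p (p - 2) (B.map (Int.castRingHom (ZMod p))) *
        klMk p (p - 2) (V.map (Int.castRingHom (ZMod p))) := by
    rw [← map_mul, ← sub_eq_zero, ← map_sub, klMk_eq_zero_iff]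
    have h2 := congrArg (Polynomial.map (Int.castRingHom (ZMod p))) hcert
    simp only [Polynomial.map_sub, Polynomial.map_mul, Polynomial.map_add, Polynomial.map_pow,
      Polynomial.map_X, Polynomial.map_C] at h2
    have hp0 : (Int.castRingHom (ZMod p)) (p : ℤ) = 0 := by simp
    rw [hp0, C_0, zero_mul, add_zero, ← derivative_map] at h2
    refine ⟨-(Q.map (Int.castRingHom (ZMod p))), ?_⟩
    linear_combination -h2
  unfold klDlogFun
  rw [hψ, klD_mk, key]
  rw [hψ, klProj_mk] at hu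
  rw [← mul_assoc, hu, one_mul]

end Fermat.Agent.Kummer
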