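import Mathlib
import Fermat.Agent.Kummer.KLDlog

/-!
# Kummer's lemma: linear independence from a certificate
-/

open NumberField Polynomial

namespace Fermat.Agent.Kummer

/-- the integer polynomial with coefficient table `v` -/
noncomputable def klPoly {n : ℕ} (v : Fin n → ℤ) : ℤ[X] := ∑ t : Fin n, C (v t) * X ^ (t : ℕ)

theorem klPoly_map_coeff (p : ℕ) {n : ℕ} (v : Fin n → ℤ) (t : Fin n) :
    ((klPoly v).map (Int.castRingHom (ZMod p))).coeff (t : ℕ) = ((v t : ℤ) : ZMod p) := by
  rw [klPoly, Polynomial.map_sum, Polynomial.finsetSum_coeff]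
  rw [Finset.sum_eq_single t]
  · simp
  · intro s _ hs
    have : (s : ℕ) ≠ (t : ℕ) := fun h => hs (Fin.ext h)
    simp [Polynomial.coeff_X_pow, this.symm]
  · intro h
    exact absurd (Finset.mem_univ t) h

theorem klSmul_mk (p n : ℕ) (k : ZMod p) (f : (ZMod p)[X]) :
    k • klMk p n f = klMk p n (C k * f) := by
  rw [← Polynomial.smul_eq_C_mul]
  rfl

theorem klLinearIndependent_of_cert (p n m : ℕ) (v : Fin m → Fin n → ℤ)
    (c : Fin m → Fin n → ZMod p)
    (hc : ∀ i j, ∑ t : Fin n, c j t * ((v i t : ℤ) : ZMod p) = if i = j then 1 else 0) :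
    LinearIndependent (ZMod p)
      (fun j : Fin m => klMk p n ((klPoly (v j)).map (Int.castRingHom (ZMod p)))) := by
  rw [Fintype.linearIndependent_iff]
  intro k hk j₀
  have h1 : klMk p n (∑ j, C (k j) * (klPoly (v j)).map (Int.castRingHom (ZMod p))) = 0 := by
    rw [map_sum, ← hk]
    refine Finset.sum_congr rfl fun j _ => ?_
    rw [klSmul_mk]
  rw [klMk_eq_zero_iff, Polynomial.X_pow_dvd_iff] at h1
  have h2 : ∀ t : Fin n, ∑ j, k j * ((v j t : ℤ) : ZMod p) = 0 := by
    intro t
    have := h1 (t : ℕ) t.2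
    rw [Polynomial.finsetSum_coeff] at this
    rw [← this]
    refine Finset.sum_congr rfl fun j _ => ?_
    rw [Polynomial.coeff_C_mul, klPoly_map_coeff]
  calc k j₀ = ∑ j, k j * (if j = j₀ then 1 else 0) := by simp
    _ = ∑ j, k j * ∑ t : Fin n, c j₀ t * ((v j t : ℤ) : ZMod p) := by
        refine Finset.sum_congr rfl fun j _ => ?_
        rw [hc j j₀]
    _ = ∑ t : Fin n, c j₀ t * ∑ j, k j * ((v j t : ℤ) : ZMod p) := by
        simp_rw [Finset.mul_sum]
        rw [Finset.sum_comm]
        refine Finset.sum_congr rfl fun t _ => Finset.sum_congr rfl fun j _ => ?_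
        ring
    _ = 0 := by simp [h2]

end Fermat.Agent.Kummer
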