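import Mathlib

/-!
# Kummer's lemma: generators of the unit group of a cyclotomic field (Dirichlet)
-/

open NumberField

namespace Fermat.Agent.Kummer

private theorem klUnits_rank (p : ℕ) [Fact p.Prime] (hp : 3 ≤ p) (K : Type*) [Field K]
    [NumberField K] [IsCyclotomicExtension {p} ℚ K] :
    NumberField.Units.rank K + 1 = (p - 1) / 2 := by
  have h1 : Fintype.card (InfinitePlace K) = (p - 1) / 2 := by
    rw [InfinitePlace.card_eq_nrRealPlaces_add_nrComplexPlaces,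
      IsCyclotomicExtension.Rat.nrRealPlaces_eq_zero (n := p) K (by omega), zero_add,
      IsCyclotomicExtension.Rat.nrComplexPlaces_eq_totient_div_two (n := p),
      Nat.totient_prime (Fact.out : p.Prime)]
  rw [NumberField.Units.rank, h1]
  have : 1 ≤ (p - 1) / 2 := by omega
  omega

theorem kl_units_gen (p : ℕ) [Fact p.Prime] (hp : 3 ≤ p) (K : Type*) [Field K] [NumberField K]
    [IsCyclotomicExtension {p} ℚ K] :
    ∃ g : Fin ((p - 1) / 2) → (𝓞 K)ˣ, ∀ u : (𝓞 K)ˣ,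
      ∃ (n : Fin ((p - 1) / 2) → ℤ) (v : (𝓞 K)ˣ), u = (∏ i, g i ^ n i) * v ^ p := by
  have hr := klUnits_rank p hp K
  obtain ⟨τ, hτ⟩ := IsCyclic.exists_generator (α := NumberField.Units.torsion K)
  refine ⟨fun i => (Fin.cons (τ : (𝓞 K)ˣ) (NumberField.Units.fundSystem K) :
    Fin (NumberField.Units.rank K + 1) → (𝓞 K)ˣ) (Fin.cast hr.symm i), ?_⟩
  intro u
  obtain ⟨ζe, hζe, -⟩ := NumberField.Units.exist_unique_eq_mul_prod K u
  obtain ⟨a, ha⟩ := Subgroup.mem_zpowers_iff.mp (hτ ζe.1)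
  refine ⟨fun i => (Fin.cons a ζe.2 : Fin (NumberField.Units.rank K + 1) → ℤ)
    (Fin.cast hr.symm i), 1, ?_⟩
  rw [one_pow, mul_one]
  have hre : ∏ i : Fin ((p - 1) / 2),
      (Fin.cons (τ : (𝓞 K)ˣ) (NumberField.Units.fundSystem K) :
        Fin (NumberField.Units.rank K + 1) → (𝓞 K)ˣ) (Fin.cast hr.symm i) ^
        (Fin.cons a ζe.2 : Fin (NumberField.Units.rank K + 1) → ℤ) (Fin.cast hr.symm i) =
      ∏ i : Fin (NumberField.Units.rank K + 1),
      (Fin.cons (τ : (𝓞 K)ˣ) (NumberField.Units.fundSystem K) :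
        Fin (NumberField.Units.rank K + 1) → (𝓞 K)ˣ) i ^
        (Fin.cons a ζe.2 : Fin (NumberField.Units.rank K + 1) → ℤ) i :=
    Equiv.prod_comp (finCongr hr.symm)
      (fun i => (Fin.cons (τ : (𝓞 K)ˣ) (NumberField.Units.fundSystem K) :
        Fin (NumberField.Units.rank K + 1) → (𝓞 K)ˣ) i ^
        (Fin.cons a ζe.2 : Fin (NumberField.Units.rank K + 1) → ℤ) i)
  rw [hre, Fin.prod_univ_succ]
  simp only [Fin.cons_zero, Fin.cons_succ]
  rw [hζe, ← ha]
  simp

end Fermat.Agent.Kummer
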