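import Mathlib
import Fermat.Agent.Kummer.KLAbstract
import Fermat.Agent.Kummer.KLUnits
import Fermat.Agent.Kummer.KLCert

/-!
# Kummer's lemma from a linear independence statement
-/

open NumberField Polynomial

namespace Fermat.Agent.Kummer

variable {p : ℕ} [Fact p.Prime] {K : Type*} [Field K] [NumberField K]
  [IsCyclotomicExtension {p} ℚ K] {ζ : K} (hζ : IsPrimitiveRoot ζ p)

theorem kl_of_linearIndependent (hp : 3 ≤ p) (e : Fin ((p - 1) / 2) → (𝓞 K)ˣ)
    (hind : LinearIndependent (ZMod p) (fun j => klDlogFun hζ (e j))) :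
    KummerLemmaHolds p K := by
  rintro u ⟨n, hn⟩
  obtain ⟨g, hg⟩ := kl_units_gen p hp K
  exact kl_abstract (klDlog hζ) _ g hg e hind u (klDlog_eq_one_of_dvd hζ u n hn)

/-- the cyclotomic unit `1 + ζ + ... + ζ^(a-1)` for `a` prime to `p`, and `ζ` itself for
`a = 0`. -/
noncomputable def klUnit (a : ℕ) : (𝓞 K)ˣ :=
  if h : a.Coprime p then
    (hζ.toInteger_isPrimitiveRoot.geom_sum_isUnit (Fact.out : p.Prime).two_le h).unit
  else (hζ.toInteger_isPrimitiveRoot.isUnit (Fact.out : p.Prime).ne_zero).unit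

omit [NumberField K] [IsCyclotomicExtension {p} ℚ K] in
theorem klUnit_val_of_coprime {a : ℕ} (h : a.Coprime p) :
    ((klUnit hζ a : (𝓞 K)ˣ) : 𝓞 K) = ∑ i ∈ Finset.range a, hζ.toInteger ^ i := by
  rw [klUnit, dif_pos h]
  rfl

omit [NumberField K] [IsCyclotomicExtension {p} ℚ K] in
theorem klUnit_val_zero :
    ((klUnit hζ 0 : (𝓞 K)ˣ) : 𝓞 K) = hζ.toInteger := by
  have h : ¬ (0 : ℕ).Coprime p := by
    rw [Nat.coprime_zero_left]
    exact (Fact.out : p.Prime).one_lt.ne'
  rw [klUnit, dif_neg h]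
  rfl

/-- the main reduction: certificates imply Kummer's lemma. `a j` lists the indices of the units
used, `b j` is the coefficient table of the unit as a polynomial in `ζ - 1`, `v j` is the
coefficient table of its dlog, `q j`, `s j` are the quotients in the certificate. -/
theorem kl_of_cert (hp : 3 ≤ p) (a : Fin ((p - 1) / 2) → ℕ)
    (B Q S : Fin ((p - 1) / 2) → ℤ[X])
    (v : Fin ((p - 1) / 2) → Fin (p - 2) → ℤ)
    (c : Fin ((p - 1) / 2) → Fin (p - 2) → ZMod p)
    (hB : ∀ j, ((klUnit hζ (a j) : (𝓞 K)ˣ) : 𝓞 K) = aeval (hζ.toInteger - 1) (B j))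
    (hcert : ∀ j, B j * klPoly (v j) - derivative (B j) = X ^ (p - 2) * Q j + C (p : ℤ) * S j)
    (hc : ∀ i j, ∑ t : Fin (p - 2), c j t * ((v i t : ℤ) : ZMod p) = if i = j then 1 else 0) :
    KummerLemmaHolds p K := by
  refine kl_of_linearIndependent hζ hp (fun j => klUnit hζ (a j)) ?_
  have h := klLinearIndependent_of_cert p (p - 2) ((p - 1) / 2) v c hc
  have hfun : (fun j => klDlogFun hζ (klUnit hζ (a j))) =
      fun j => klMk p (p - 2) ((klPoly (v j)).map (Int.castRingHom (ZMod p))) :=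
    funext fun j =>
      klDlogFun_eq_of_cert hζ _ (B j) (klPoly (v j)) (Q j) (S j) (hB j) (hcert j)
  rw [hfun]
  exact h

end Fermat.Agent.Kummer
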