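import Mathlib
import Fermat.Agent.Kummer.KLMain

/-!
# Kummer's lemma for p = 11 (certificate file, machine generated)
-/

open NumberField Polynomial

namespace Fermat.Agent.Kummer

/-- indices of the cyclotomic units used for `p = 11` -/
def kl11A : Fin 5 → ℕ := ![0, 2, 3, 4, 5]

/-- dlog coordinates for `p = 11` -/
def kl11V : Fin 5 → Fin 9 → ℤ :=
  ![![1, 10, 1, 10, 1, 10, 1, 10, 1],
    ![6, 8, 7, 2, 10, 6, 8, 7, 2],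
    ![1, 7, 0, 5, 6, 7, 2, 3, 0],
    ![7, 8, 1, 8, 7, 6, 4, 0, 0],
    ![2, 0, 10, 3, 0, 6, 5, 6, 5]]

/-- left inverse certificate for `p = 11` -/
def kl11C : Fin 5 → Fin 9 → ZMod 11 :=
  ![![9, 1, 0, 9, 0, 0, 0, 9, 0],
    ![6, 8, 0, 0, 0, 8, 0, 1, 0],
    ![7, 7, 0, 1, 0, 5, 0, 5, 0],
    ![0, 4, 0, 3, 0, 0, 0, 4, 0],
    ![2, 2, 0, 1, 0, 1, 0, 9, 0]]

/-- the units as polynomials in `ζ - 1` -/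
noncomputable def kl11B : Fin 5 → ℤ[X] :=
  ![(1 : ℤ[X]) + (1 : ℤ[X]) * X,
    (2 : ℤ[X]) + (1 : ℤ[X]) * X,
    (3 : ℤ[X]) + (3 : ℤ[X]) * X + (1 : ℤ[X]) * X ^ 2,
    (4 : ℤ[X]) + (6 : ℤ[X]) * X + (4 : ℤ[X]) * X ^ 2 + (1 : ℤ[X]) * X ^ 3,
    (5 : ℤ[X]) + (10 : ℤ[X]) * X + (10 : ℤ[X]) * X ^ 2 + (5 : ℤ[X]) * X ^ 3 + (1 : ℤ[X]) * X ^ 4]

/-- certificate quotients (part divisible by `X^9`) -/
noncomputable def kl11Q : Fin 5 → ℤ[X] :=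
  ![(1 : ℤ[X]),
    (2 : ℤ[X]),
    (3 : ℤ[X]),
    (4 : ℤ[X]),
    (141 : ℤ[X]) + (85 : ℤ[X]) * X + (31 : ℤ[X]) * X ^ 2 + (5 : ℤ[X]) * X ^ 3]

/-- certificate quotients (part divisible by `11`) -/
noncomputable def kl11S : Fin 5 → ℤ[X] :=
  ![(1 : ℤ[X]) * X + (1 : ℤ[X]) * X ^ 2 + (1 : ℤ[X]) * X ^ 3 + (1 : ℤ[X]) * X ^ 4 + (1 : ℤ[X]) * X ^ 5 + (1 : ℤ[X]) * X ^ 6 + (1 : ℤ[X]) * X ^ 7 + (1 : ℤ[X]) * X ^ 8,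
    (1 : ℤ[X]) + (2 : ℤ[X]) * X + (2 : ℤ[X]) * X ^ 2 + (1 : ℤ[X]) * X ^ 3 + (2 : ℤ[X]) * X ^ 4 + (2 : ℤ[X]) * X ^ 5 + (2 : ℤ[X]) * X ^ 6 + (2 : ℤ[X]) * X ^ 7 + (1 : ℤ[X]) * X ^ 8,
    (2 : ℤ[X]) * X + (2 : ℤ[X]) * X ^ 2 + (2 : ℤ[X]) * X ^ 3 + (3 : ℤ[X]) * X ^ 4 + (4 : ℤ[X]) * X ^ 5 + (3 : ℤ[X]) * X ^ 6 + (2 : ℤ[X]) * X ^ 7 + (1 : ℤ[X]) * X ^ 8,
    (2 : ℤ[X]) + (6 : ℤ[X]) * X + (7 : ℤ[X]) * X ^ 2 + (7 : ℤ[X]) * X ^ 3 + (8 : ℤ[X]) * X ^ 4 + (9 : ℤ[X]) * X ^ 5 + (8 : ℤ[X]) * X ^ 6 + (5 : ℤ[X]) * X ^ 7 + (2 : ℤ[X]) * X ^ 8,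
    (5 : ℤ[X]) * X ^ 2 + (11 : ℤ[X]) * X ^ 3 + (12 : ℤ[X]) * X ^ 4 + (10 : ℤ[X]) * X ^ 5 + (10 : ℤ[X]) * X ^ 6 + (13 : ℤ[X]) * X ^ 7 + (15 : ℤ[X]) * X ^ 8]

theorem kl11_hc : ∀ i j : Fin 5, ∑ t : Fin 9, kl11C j t * ((kl11V i t : ℤ) : ZMod 11) =
    if i = j then 1 else 0 := by
  decide

theorem kl11_hcert : ∀ j : Fin 5, kl11B j * klPoly (kl11V j) - derivative (kl11B j) =
    X ^ (11 - 2) * kl11Q j + C ((11 : ℕ) : ℤ) * kl11S j := by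
  intro j
  fin_cases j <;>
  · simp [kl11B, kl11V, kl11Q, kl11S, klPoly, Fin.sum_univ_succ]
    ring

theorem kummerLemma_eleven (K : Type*) [Field K] [NumberField K] [Fact (Nat.Prime 11)]
    [IsCyclotomicExtension {11} ℚ K] : KummerLemmaHolds 11 K := by
  have hζ := IsCyclotomicExtension.zeta_spec 11 ℚ K
  refine kl_of_cert hζ (by norm_num) kl11A kl11B kl11Q kl11S kl11V kl11C ?_ kl11_hcert kl11_hc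
  intro j
  fin_cases j
  · change ((klUnit hζ 0 : (𝓞 K)ˣ) : 𝓞 K) = aeval (hζ.toInteger - 1) (kl11B 0)
    rw [klUnit_val_zero]
    simp [kl11B]
  · change ((klUnit hζ 2 : (𝓞 K)ˣ) : 𝓞 K) = aeval (hζ.toInteger - 1) (kl11B 1)
    rw [klUnit_val_of_coprime hζ (by norm_num : Nat.Coprime 2 11)]
    simp [kl11B, Finset.sum_range_succ, map_ofNat]
    ring
  · change ((klUnit hζ 3 : (𝓞 K)ˣ) : 𝓞 K) = aeval (hζ.toInteger - 1) (kl11B 2)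
    rw [klUnit_val_of_coprime hζ (by norm_num : Nat.Coprime 3 11)]
    simp [kl11B, Finset.sum_range_succ, map_ofNat]
    ring
  · change ((klUnit hζ 4 : (𝓞 K)ˣ) : 𝓞 K) = aeval (hζ.toInteger - 1) (kl11B 3)
    rw [klUnit_val_of_coprime hζ (by norm_num : Nat.Coprime 4 11)]
    simp [kl11B, Finset.sum_range_succ, map_ofNat]
    ring
  · change ((klUnit hζ 5 : (𝓞 K)ˣ) : 𝓞 K) = aeval (hζ.toInteger - 1) (kl11B 4)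
    rw [klUnit_val_of_coprime hζ (by norm_num : Nat.Coprime 5 11)]
    simp [kl11B, Finset.sum_range_succ, map_ofNat]
    ring

end Fermat.Agent.Kummer
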