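import Mathlib
import Fermat.Agent.Kummer.KLMain

/-!
# Kummer's lemma for p = 13 (certificate file, machine generated)
-/

open NumberField Polynomial

namespace Fermat.Agent.Kummer

/-- indices of the cyclotomic units used for `p = 13` -/
def kl13A : Fin 6 → ℕ := ![0, 2, 3, 4, 5, 6]

/-- dlog coordinates for `p = 13` -/
def kl13V : Fin 6 → Fin 11 → ℤ :=
  ![![1, 12, 1, 12, 1, 12, 1, 12, 1, 12, 1],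
    ![7, 3, 5, 4, 11, 1, 6, 10, 8, 9, 2],
    ![1, 4, 0, 3, 10, 2, 12, 9, 0, 10, 3],
    ![8, 3, 11, 11, 1, 1, 11, 5, 4, 9, 4],
    ![2, 0, 12, 6, 0, 2, 11, 4, 7, 3, 5],
    ![9, 8, 3, 8, 9, 1, 6, 7, 6, 7, 6]]

/-- left inverse certificate for `p = 13` -/
def kl13C : Fin 6 → Fin 11 → ZMod 13 :=
  ![![1, 3, 0, 3, 0, 9, 0, 7, 0, 4, 0],
    ![10, 2, 0, 10, 0, 7, 0, 11, 0, 6, 0],
    ![12, 12, 0, 2, 0, 4, 0, 0, 0, 7, 0],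
    ![7, 11, 0, 9, 0, 9, 0, 6, 0, 11, 0],
    ![4, 2, 0, 2, 0, 7, 0, 1, 0, 5, 0],
    ![4, 1, 0, 2, 0, 11, 0, 1, 0, 2, 0]]

/-- the units as polynomials in `ζ - 1` -/
noncomputable def kl13B : Fin 6 → ℤ[X] :=
  ![(1 : ℤ[X]) + (1 : ℤ[X]) * X,
    (2 : ℤ[X]) + (1 : ℤ[X]) * X,
    (3 : ℤ[X]) + (3 : ℤ[X]) * X + (1 : ℤ[X]) * X ^ 2,
    (4 : ℤ[X]) + (6 : ℤ[X]) * X + (4 : ℤ[X]) * X ^ 2 + (1 : ℤ[X]) * X ^ 3,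
    (5 : ℤ[X]) + (10 : ℤ[X]) * X + (10 : ℤ[X]) * X ^ 2 + (5 : ℤ[X]) * X ^ 3 + (1 : ℤ[X]) * X ^ 4,
    (6 : ℤ[X]) + (15 : ℤ[X]) * X + (20 : ℤ[X]) * X ^ 2 + (15 : ℤ[X]) * X ^ 3 + (6 : ℤ[X]) * X ^ 4 + (1 : ℤ[X]) * X ^ 5]

/-- certificate quotients (part divisible by `X^11`) -/
noncomputable def kl13Q : Fin 6 → ℤ[X] :=
  ![(1 : ℤ[X]),
    (2 : ℤ[X]),
    (19 : ℤ[X]) + (3 : ℤ[X]) * X,
    (64 : ℤ[X]) + (25 : ℤ[X]) * X + (4 : ℤ[X]) * X ^ 2,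
    (119 : ℤ[X]) + (72 : ℤ[X]) * X + (28 : ℤ[X]) * X ^ 2 + (5 : ℤ[X]) * X ^ 3,
    (368 : ℤ[X]) + (268 : ℤ[X]) * X + (138 : ℤ[X]) * X ^ 2 + (43 : ℤ[X]) * X ^ 3 + (6 : ℤ[X]) * X ^ 4]

/-- certificate quotients (part divisible by `13`) -/
noncomputable def kl13S : Fin 6 → ℤ[X] :=
  ![(1 : ℤ[X]) * X + (1 : ℤ[X]) * X ^ 2 + (1 : ℤ[X]) * X ^ 3 + (1 : ℤ[X]) * X ^ 4 + (1 : ℤ[X]) * X ^ 5 + (1 : ℤ[X]) * X ^ 6 + (1 : ℤ[X]) * X ^ 7 + (1 : ℤ[X]) * X ^ 8 + (1 : ℤ[X]) * X ^ 9 + (1 : ℤ[X]) * X ^ 10,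
    (1 : ℤ[X]) + (1 : ℤ[X]) * X + (1 : ℤ[X]) * X ^ 2 + (1 : ℤ[X]) * X ^ 3 + (2 : ℤ[X]) * X ^ 4 + (1 : ℤ[X]) * X ^ 5 + (1 : ℤ[X]) * X ^ 6 + (2 : ℤ[X]) * X ^ 7 + (2 : ℤ[X]) * X ^ 8 + (2 : ℤ[X]) * X ^ 9 + (1 : ℤ[X]) * X ^ 10,
    (1 : ℤ[X]) * X + (1 : ℤ[X]) * X ^ 2 + (1 : ℤ[X]) * X ^ 3 + (3 : ℤ[X]) * X ^ 4 + (3 : ℤ[X]) * X ^ 5 + (4 : ℤ[X]) * X ^ 6 + (5 : ℤ[X]) * X ^ 7 + (3 : ℤ[X]) * X ^ 8 + (3 : ℤ[X]) * X ^ 9 + (3 : ℤ[X]) * X ^ 10,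
    (2 : ℤ[X]) + (4 : ℤ[X]) * X + (7 : ℤ[X]) * X ^ 2 + (10 : ℤ[X]) * X ^ 3 + (9 : ℤ[X]) * X ^ 4 + (5 : ℤ[X]) * X ^ 5 + (5 : ℤ[X]) * X ^ 6 + (7 : ℤ[X]) * X ^ 7 + (7 : ℤ[X]) * X ^ 8 + (7 : ℤ[X]) * X ^ 9 + (7 : ℤ[X]) * X ^ 10,
    (5 : ℤ[X]) * X ^ 2 + (12 : ℤ[X]) * X ^ 3 + (14 : ℤ[X]) * X ^ 4 + (10 : ℤ[X]) * X ^ 5 + (9 : ℤ[X]) * X ^ 6 + (12 : ℤ[X]) * X ^ 7 + (15 : ℤ[X]) * X ^ 8 + (14 : ℤ[X]) * X ^ 9 + (12 : ℤ[X]) * X ^ 10,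
    (3 : ℤ[X]) + (11 : ℤ[X]) * X + (21 : ℤ[X]) * X ^ 2 + (28 : ℤ[X]) * X ^ 3 + (31 : ℤ[X]) * X ^ 4 + (31 : ℤ[X]) * X ^ 5 + (29 : ℤ[X]) * X ^ 6 + (26 : ℤ[X]) * X ^ 7 + (26 : ℤ[X]) * X ^ 8 + (29 : ℤ[X]) * X ^ 9 + (31 : ℤ[X]) * X ^ 10]

theorem kl13_hc : ∀ i j : Fin 6, ∑ t : Fin 11, kl13C j t * ((kl13V i t : ℤ) : ZMod 13) =
    if i = j then 1 else 0 := by
  decide

theorem kl13_hcert : ∀ j : Fin 6, kl13B j * klPoly (kl13V j) - derivative (kl13B j) =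
    X ^ (13 - 2) * kl13Q j + C ((13 : ℕ) : ℤ) * kl13S j := by
  intro j
  fin_cases j <;>
  · simp [kl13B, kl13V, kl13Q, kl13S, klPoly, Fin.sum_univ_succ]
    ring

theorem kummerLemma_thirteen (K : Type*) [Field K] [NumberField K] [Fact (Nat.Prime 13)]
    [IsCyclotomicExtension {13} ℚ K] : KummerLemmaHolds 13 K := by
  have hζ := IsCyclotomicExtension.zeta_spec 13 ℚ K
  refine kl_of_cert hζ (by norm_num) kl13A kl13B kl13Q kl13S kl13V kl13C ?_ kl13_hcert kl13_hc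
  intro j
  fin_cases j
  · change ((klUnit hζ 0 : (𝓞 K)ˣ) : 𝓞 K) = aeval (hζ.toInteger - 1) (kl13B 0)
    rw [klUnit_val_zero]
    simp [kl13B]
  · change ((klUnit hζ 2 : (𝓞 K)ˣ) : 𝓞 K) = aeval (hζ.toInteger - 1) (kl13B 1)
    rw [klUnit_val_of_coprime hζ (by norm_num : Nat.Coprime 2 13)]
    simp [kl13B, Finset.sum_range_succ, map_ofNat]
    ring
  · change ((klUnit hζ 3 : (𝓞 K)ˣ) : 𝓞 K) = aeval (hζ.toInteger - 1) (kl13B 2)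
    rw [klUnit_val_of_coprime hζ (by norm_num : Nat.Coprime 3 13)]
    simp [kl13B, Finset.sum_range_succ, map_ofNat]
    ring
  · change ((klUnit hζ 4 : (𝓞 K)ˣ) : 𝓞 K) = aeval (hζ.toInteger - 1) (kl13B 3)
    rw [klUnit_val_of_coprime hζ (by norm_num : Nat.Coprime 4 13)]
    simp [kl13B, Finset.sum_range_succ, map_ofNat]
    ring
  · change ((klUnit hζ 5 : (𝓞 K)ˣ) : 𝓞 K) = aeval (hζ.toInteger - 1) (kl13B 4)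
    rw [klUnit_val_of_coprime hζ (by norm_num : Nat.Coprime 5 13)]
    simp [kl13B, Finset.sum_range_succ, map_ofNat]
    ring
  · change ((klUnit hζ 6 : (𝓞 K)ˣ) : 𝓞 K) = aeval (hζ.toInteger - 1) (kl13B 5)
    rw [klUnit_val_of_coprime hζ (by norm_num : Nat.Coprime 6 13)]
    simp [kl13B, Finset.sum_range_succ, map_ofNat]
    ring

end Fermat.Agent.Kummer
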