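import Mathlib
import Fermat.Agent.Kummer.KLMain

/-!
# Kummer's lemma for p = 5 (certificate file, machine generated)
-/

open NumberField Polynomial

namespace Fermat.Agent.Kummer

/-- indices of the cyclotomic units used for `p = 5` -/
def kl5A : Fin 2 → ℕ := ![0, 2]

/-- dlog coordinates for `p = 5` -/
def kl5V : Fin 2 → Fin 3 → ℤ :=
  ![![1, 4, 1],
    ![3, 1, 2]]

/-- left inverse certificate for `p = 5` -/
def kl5C : Fin 2 → Fin 3 → ZMod 5 :=
  ![![4, 3, 0],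
    ![4, 4, 0]]

/-- the units as polynomials in `ζ - 1` -/
noncomputable def kl5B : Fin 2 → ℤ[X] :=
  ![(1 : ℤ[X]) + (1 : ℤ[X]) * X,
    (2 : ℤ[X]) + (1 : ℤ[X]) * X]

/-- certificate quotients (part divisible by `X^3`) -/
noncomputable def kl5Q : Fin 2 → ℤ[X] :=
  ![(1 : ℤ[X]),
    (2 : ℤ[X])]

/-- certificate quotients (part divisible by `5`) -/
noncomputable def kl5S : Fin 2 → ℤ[X] :=
  ![(1 : ℤ[X]) * X + (1 : ℤ[X]) * X ^ 2,
    (1 : ℤ[X]) + (1 : ℤ[X]) * X + (1 : ℤ[X]) * X ^ 2]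

theorem kl5_hc : ∀ i j : Fin 2, ∑ t : Fin 3, kl5C j t * ((kl5V i t : ℤ) : ZMod 5) =
    if i = j then 1 else 0 := by
  decide

theorem kl5_hcert : ∀ j : Fin 2, kl5B j * klPoly (kl5V j) - derivative (kl5B j) =
    X ^ (5 - 2) * kl5Q j + C ((5 : ℕ) : ℤ) * kl5S j := by
  intro j
  fin_cases j <;>
  · simp [kl5B, kl5V, kl5Q, kl5S, klPoly, Fin.sum_univ_succ]
    ring

theorem kummerLemma_five (K : Type*) [Field K] [NumberField K] [Fact (Nat.Prime 5)]
    [IsCyclotomicExtension {5} ℚ K] : KummerLemmaHolds 5 K := by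
  have hζ := IsCyclotomicExtension.zeta_spec 5 ℚ K
  refine kl_of_cert hζ (by norm_num) kl5A kl5B kl5Q kl5S kl5V kl5C ?_ kl5_hcert kl5_hc
  intro j
  fin_cases j
  · change ((klUnit hζ 0 : (𝓞 K)ˣ) : 𝓞 K) = aeval (hζ.toInteger - 1) (kl5B 0)
    rw [klUnit_val_zero]
    simp [kl5B]
  · change ((klUnit hζ 2 : (𝓞 K)ˣ) : 𝓞 K) = aeval (hζ.toInteger - 1) (kl5B 1)
    rw [klUnit_val_of_coprime hζ (by norm_num : Nat.Coprime 2 5)]
    simp [kl5B, Finset.sum_range_succ, map_ofNat]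
    ring

end Fermat.Agent.Kummer
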