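import Mathlib
import Fermat.Agent.Kummer.KLMain

/-!
# Kummer's lemma for p = 7 (certificate file, machine generated)
-/

open NumberField Polynomial

namespace Fermat.Agent.Kummer

/-- indices of the cyclotomic units used for `p = 7` -/
def kl7A : Fin 3 → ℕ := ![0, 2, 3]

/-- dlog coordinates for `p = 7` -/
def kl7V : Fin 3 → Fin 5 → ℤ :=
  ![![1, 6, 1, 6, 1],
    ![4, 5, 1, 3, 2],
    ![1, 2, 0, 4, 3]]

/-- left inverse certificate for `p = 7` -/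
def kl7C : Fin 3 → Fin 5 → ZMod 7 :=
  ![![0, 5, 0, 1, 0],
    ![3, 4, 0, 6, 0],
    ![3, 0, 0, 3, 0]]

/-- the units as polynomials in `ζ - 1` -/
noncomputable def kl7B : Fin 3 → ℤ[X] :=
  ![(1 : ℤ[X]) + (1 : ℤ[X]) * X,
    (2 : ℤ[X]) + (1 : ℤ[X]) * X,
    (3 : ℤ[X]) + (3 : ℤ[X]) * X + (1 : ℤ[X]) * X ^ 2]

/-- certificate quotients (part divisible by `X^5`) -/
noncomputable def kl7Q : Fin 3 → ℤ[X] :=
  ![(1 : ℤ[X]),
    (2 : ℤ[X]),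
    (13 : ℤ[X]) + (3 : ℤ[X]) * X]

/-- certificate quotients (part divisible by `7`) -/
noncomputable def kl7S : Fin 3 → ℤ[X] :=
  ![(1 : ℤ[X]) * X + (1 : ℤ[X]) * X ^ 2 + (1 : ℤ[X]) * X ^ 3 + (1 : ℤ[X]) * X ^ 4,
    (1 : ℤ[X]) + (2 : ℤ[X]) * X + (1 : ℤ[X]) * X ^ 2 + (1 : ℤ[X]) * X ^ 3 + (1 : ℤ[X]) * X ^ 4,
    (1 : ℤ[X]) * X + (1 : ℤ[X]) * X ^ 2 + (2 : ℤ[X]) * X ^ 3 + (3 : ℤ[X]) * X ^ 4]

theorem kl7_hc : ∀ i j : Fin 3, ∑ t : Fin 5, kl7C j t * ((kl7V i t : ℤ) : ZMod 7) =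
    if i = j then 1 else 0 := by
  decide

theorem kl7_hcert : ∀ j : Fin 3, kl7B j * klPoly (kl7V j) - derivative (kl7B j) =
    X ^ (7 - 2) * kl7Q j + C ((7 : ℕ) : ℤ) * kl7S j := by
  intro j
  fin_cases j <;>
  · simp [kl7B, kl7V, kl7Q, kl7S, klPoly, Fin.sum_univ_succ]
    ring

theorem kummerLemma_seven (K : Type*) [Field K] [NumberField K] [Fact (Nat.Prime 7)]
    [IsCyclotomicExtension {7} ℚ K] : KummerLemmaHolds 7 K := by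
  have hζ := IsCyclotomicExtension.zeta_spec 7 ℚ K
  refine kl_of_cert hζ (by norm_num) kl7A kl7B kl7Q kl7S kl7V kl7C ?_ kl7_hcert kl7_hc
  intro j
  fin_cases j
  · change ((klUnit hζ 0 : (𝓞 K)ˣ) : 𝓞 K) = aeval (hζ.toInteger - 1) (kl7B 0)
    rw [klUnit_val_zero]
    simp [kl7B]
  · change ((klUnit hζ 2 : (𝓞 K)ˣ) : 𝓞 K) = aeval (hζ.toInteger - 1) (kl7B 1)
    rw [klUnit_val_of_coprime hζ (by norm_num : Nat.Coprime 2 7)]
    simp [kl7B, Finset.sum_range_succ, map_ofNat]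
    ring
  · change ((klUnit hζ 3 : (𝓞 K)ˣ) : 𝓞 K) = aeval (hζ.toInteger - 1) (kl7B 2)
    rw [klUnit_val_of_coprime hζ (by norm_num : Nat.Coprime 3 7)]
    simp [kl7B, Finset.sum_range_succ, map_ofNat]
    ring

end Fermat.Agent.Kummer
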