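import Mathlib
import Fermat.Agent.Kummer.KL5
import Fermat.Agent.Kummer.KL7
import Fermat.Agent.Kummer.KL11
import Fermat.Agent.Kummer.KL13

/-!
# Kummer's lemma for the primes 5, 7, 11, 13
-/

open NumberField

namespace Fermat.Agent.Kummer

theorem kummerLemma_small {p : ℕ} [Fact p.Prime] (hp : p = 5 ∨ p = 7 ∨ p = 11 ∨ p = 13)
    (K : Type*) [Field K] [NumberField K] [IsCyclotomicExtension {p} ℚ K] :
    KummerLemmaHolds p K := by
  rcases hp with rfl | rfl | rfl | rfl
  · exact kummerLemma_five K
  · exact kummerLemma_seven K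
  · exact kummerLemma_eleven K
  · exact kummerLemma_thirteen K

end Fermat.Agent.Kummer
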