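import Mathlib

/-!
# `ℤ[ζ₁₁]` is a principal ideal domain

Minkowski bound `< 59`.  The only primes `p ≤ 58` having a prime ideal of norm `≤ 58` above them
are `11` (the prime `(ζ - 1)`) and `23` (splits completely; `(1 + ζ + ζ³)` is a prime above it).
-/

set_option autoImplicit false

open NumberField Module InfinitePlace Ideal Nat Real IsCyclotomicExtension IsCyclotomicExtension.Rat Polynomial
  RingOfIntegers NumberField.Ideal

namespace Fermat.Agent.Kummer

/-- The Minkowski bound of `ℚ(ζ₁₁)` is `< 59`. -/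
theorem pid11_minkowski_lt (K : Type*) [Field K] [NumberField K]
    [IsCyclotomicExtension {11} ℚ K] :
    (4 / π) ^ nrComplexPlaces K *
      ((finrank ℚ K)! / (finrank ℚ K) ^ (finrank ℚ K) * √|(discr K : ℝ)|) < 59 := by
  have hp11 : Nat.Prime 11 := by norm_num
  have : Fact (Nat.Prime 11) := ⟨hp11⟩
  have hfin : finrank ℚ K = 10 := by
    rw [IsCyclotomicExtension.finrank (n := 11) K
      (Polynomial.cyclotomic.irreducible_rat (by simp)), totient_prime hp11]
  have hr2 : nrComplexPlaces K = 5 := by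
    rw [nrComplexPlaces_eq_totient_div_two 11, totient_prime hp11]
  have hdisc : discr K = -2357947691 := by
    rw [discr_prime 11 K]
    norm_num
  rw [hfin, hr2, hdisc]
  have hsqrt : √|((-2357947691 : ℤ) : ℝ)| < 48559 := by
    rw [Real.sqrt_lt' (by norm_num)]
    norm_num
  have hpi : (4 / π) ^ 5 < (4 / 3.1415 : ℝ) ^ 5 := by
    gcongr
    exact pi_gt_d4
  have hpos : (0 : ℝ) < (4 / π) ^ 5 := by positivity
  have h10 : ((10 : ℕ)! : ℝ) = 3628800 := by
    norm_num [Nat.factorial]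
  rw [h10]
  calc (4 / π) ^ 5 * ((3628800 : ℝ) / ((10 : ℕ) : ℝ) ^ 10 * √|((-2357947691 : ℤ) : ℝ)|)
      ≤ (4 / 3.1415 : ℝ) ^ 5 * ((3628800 : ℝ) / ((10 : ℕ) : ℝ) ^ 10 * 48559) := by
        gcongr
    _ < 59 := by norm_num

theorem pid11_pow_ten (r : ZMod 11) (hr : r ≠ 0) : r ^ 10 = 1 := by
  revert r
  decide

/-- Nonzero residues `≠ 1` mod `11` have order at least `2`. -/
theorem pid11_two_le_orderOf (r : ZMod 11) (hr0 : r ≠ 0) (hr1 : r ≠ 1) : 2 ≤ orderOf r := by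
  have h10 := pid11_pow_ten r hr0
  have hpos : 0 < orderOf r := orderOf_pos_iff.mpr (isOfFinOrder_iff_pow_eq_one.mpr ⟨10, by norm_num, h10⟩)
  have hne1 : orderOf r ≠ 1 := fun h => hr1 (orderOf_eq_one_iff.mp h)
  omega

theorem pid11_orderOf_two : orderOf ((2 : ℕ) : ZMod 11) = 10 := by
  rw [orderOf_eq_iff (by norm_num)]
  refine ⟨by decide, fun m hm hm0 => ?_⟩
  interval_cases m <;> decide

theorem pid11_orderOf_three : orderOf ((3 : ℕ) : ZMod 11) = 5 := by
  rw [orderOf_eq_iff (by norm_num)]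
  refine ⟨by decide, fun m hm hm0 => ?_⟩
  interval_cases m <;> decide

theorem pid11_orderOf_five : orderOf ((5 : ℕ) : ZMod 11) = 5 := by
  rw [orderOf_eq_iff (by norm_num)]
  refine ⟨by decide, fun m hm hm0 => ?_⟩
  interval_cases m <;> decide

theorem pid11_orderOf_seven : orderOf ((7 : ℕ) : ZMod 11) = 10 := by
  rw [orderOf_eq_iff (by norm_num)]
  refine ⟨by decide, fun m hm hm0 => ?_⟩
  interval_cases m <;> decide

theorem pid11_root : ∑ x ∈ Finset.range 11, (4 : ZMod 23) ^ x = 0 := by decide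

section TwentyThree

variable (K : Type*) [Field K] [NumberField K] [IsCyclotomicExtension {11} ℚ K]

/-- The relation `1 + ζ + ⋯ + ζ¹⁰ = 0`. -/
theorem pid11_geom_sum :
    let θ := (zeta_spec 11 ℚ K).toInteger
    1 + θ + θ ^ 2 + θ ^ 3 + θ ^ 4 + θ ^ 5 + θ ^ 6 + θ ^ 7 + θ ^ 8 + θ ^ 9 + θ ^ 10 = 0 := by
  intro θ
  have h := (zeta_spec 11 ℚ K).toInteger_isPrimitiveRoot.geom_sum_eq_zero (by norm_num)
  simp only [Finset.sum_range_succ, Finset.sum_range_zero, zero_add, pow_zero, pow_one] at h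
  exact h

theorem pid11_minpoly :
    minpoly ℤ (zeta_spec 11 ℚ K).toInteger = cyclotomic 11 ℤ := by
  have h1 : minpoly ℤ ((zeta_spec 11 ℚ K).toInteger : K) = minpoly ℤ (zeta_spec 11 ℚ K).toInteger :=
    RingOfIntegers.minpoly_coe _
  have h2 : ((zeta_spec 11 ℚ K).toInteger : K) = zeta 11 ℚ K := (zeta_spec 11 ℚ K).coe_toInteger
  exact h1.symm.trans ((congrArg (minpoly ℤ) h2).trans
    (cyclotomic_eq_minpoly (zeta_spec 11 ℚ K) (by norm_num)).symm)

/-- There is a principal prime ideal of `ℤ[ζ₁₁]` above `23`. -/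
theorem pid11_exists_principal_over_23 :
    ∃ P ∈ primesOver (span {((23 : ℕ) : ℤ)}) (𝓞 K), Submodule.IsPrincipal P := by
  have hp23 : Nat.Prime 23 := by norm_num
  have : Fact (Nat.Prime 23) := ⟨hp23⟩
  set θ := (zeta_spec 11 ℚ K).toInteger with hθ
  have h₁ : ¬ 23 ∣ exponent θ := by
    rw [exponent_eq_one_iff.mpr <| adjoin_singleton_eq_top (zeta_spec 11 ℚ K)]
    norm_num
  have hrel := pid11_geom_sum K
  simp only at hrel
  rw [← hθ] at hrel
  -- the factor `X - 4` of `Φ₁₁` mod `23`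
  have hQ : (X - C (4 : ℤ) : ℤ[X]).map (Int.castRingHom (ZMod 23)) ∈ monicFactorsMod θ 23 := by
    rw [Multiset.mem_toFinset, Polynomial.mem_normalizedFactors_iff
      (map_monic_ne_zero (minpoly.monic θ.isIntegral))]
    have hmap : (X - C (4 : ℤ) : ℤ[X]).map (Int.castRingHom (ZMod 23)) = X - C (4 : ZMod 23) := by
      rw [Polynomial.map_sub, Polynomial.map_X, Polynomial.map_C]
      rfl
    have : Fact (Nat.Prime 11) := ⟨by norm_num⟩
    rw [hmap]
    refine ⟨irreducible_X_sub_C _, monic_X_sub_C _, ?_⟩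
    rw [dvd_iff_isRoot, pid11_minpoly K, map_cyclotomic, cyclotomic_prime, IsRoot.def]
    simp only [eval_finsetSum, eval_pow, eval_X]
    exact pid11_root
  have hspan := primesOverSpanEquivMonicFactorsMod_symm_apply_eq_span h₁ hQ
  have hmem := ((primesOverSpanEquivMonicFactorsMod h₁).symm
      ⟨(X - C (4 : ℤ) : ℤ[X]).map (Int.castRingHom (ZMod 23)), hQ⟩).prop
  rw [hspan] at hmem
  refine ⟨_, hmem, ?_⟩
  have haeval : aeval θ (X - C (4 : ℤ) : ℤ[X]) = θ - 4 := by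
    rw [map_sub, aeval_X, aeval_C]
    simp
  rw [haeval]
  -- the generator
  have hαβ : (1 + θ + θ ^ 3) * ((-2) + (-14) * θ + (-17) * θ ^ 2 + (-12) * θ ^ 3 + (-5) * θ ^ 4
      + (-9) * θ ^ 5 + (-10) * θ ^ 6 + (-16) * θ ^ 7 + (-6) * θ ^ 8 + (-15) * θ ^ 9) = 23 := by
    linear_combination ((-25) + 9 * θ + (-15) * θ ^ 2) * hrel
  have hαγ : (1 + θ + θ ^ 3) * (1 + 3 * θ + 3 * θ ^ 2 + 2 * θ ^ 3 + θ ^ 4 + 2 * θ ^ 5 + 2 * θ ^ 6
      + 3 * θ ^ 7 + θ ^ 8 + 3 * θ ^ 9) = θ - 4 := by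
    linear_combination (5 + (-2) * θ + 3 * θ ^ 2) * hrel
  have heq : span {((23 : ℕ) : 𝓞 K), θ - 4} = span {1 + θ + θ ^ 3} := by
    apply le_antisymm
    · rw [span_le]
      intro x hx
      rcases hx with rfl | rfl
      · exact mem_span_singleton.mpr ⟨_, by rw [hαβ]; norm_num⟩
      · exact mem_span_singleton.mpr ⟨_, hαγ.symm⟩
    · rw [span_le]
      intro x hx
      rw [Set.mem_singleton_iff] at hx
      rw [hx]
      refine mem_span_pair.mpr ⟨3, θ ^ 2 + 4 * θ + 17, ?_⟩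
      push_cast
      ring
  rw [heq]
  exact ⟨⟨_, rfl⟩⟩

end TwentyThree

theorem eleven_pid (K : Type*) [Field K] [NumberField K] [IsCyclotomicExtension {11} ℚ K] :
    IsPrincipalIdealRing (𝓞 K) := by
  have hp11 : Nat.Prime 11 := by norm_num
  have : Fact (Nat.Prime 11) := ⟨hp11⟩
  have : IsGalois ℚ K := IsCyclotomicExtension.isGalois {11} ℚ K
  have hM := pid11_minkowski_lt K
  have hfloor : ⌊(4 / π) ^ nrComplexPlaces K *
      ((finrank ℚ K)! / (finrank ℚ K) ^ (finrank ℚ K) * √|(discr K : ℝ)|)⌋₊ ≤ 58 := by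
    rw [← Nat.lt_succ_iff, Nat.floor_lt (by positivity)]
    exact_mod_cast hM
  apply RingOfIntegers.isPrincipalIdealRing_of_isPrincipal_of_lt_or_isPrincipal_of_mem_primesOver_of_mem_Icc
  intro p hp hpp
  have : Fact p.Prime := ⟨hpp⟩
  have hp58 : p ≤ 58 := (Finset.mem_Icc.mp hp).2.trans hfloor
  by_cases h11 : p = 11
  · subst h11
    obtain ⟨⟨P, hP1, hP2⟩⟩ := (span {((11 : ℕ) : ℤ)}).nonempty_primesOver (S := 𝓞 K)
    refine ⟨P, ⟨hP1, hP2⟩, Or.inr ?_⟩
    rw [eq_span_zeta_sub_one_of_liesOver' 11 K (zeta_spec 11 ℚ K) P]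
    exact ⟨⟨_, rfl⟩⟩
  by_cases h23 : p = 23
  · subst h23
    obtain ⟨P, hP, hprin⟩ := pid11_exists_principal_over_23 K
    exact ⟨P, hP, Or.inr hprin⟩
  obtain ⟨⟨P, hP1, hP2⟩⟩ := (span {(p : ℤ)}).nonempty_primesOver (S := 𝓞 K)
  refine ⟨P, ⟨hP1, hP2⟩, Or.inl ?_⟩
  refine lt_of_le_of_lt hfloor ?_
  have hndvd : ¬ p ∣ 11 := by
    intro h
    exact h11 ((Nat.prime_dvd_prime_iff_eq hpp hp11).mp h)
  rw [inertiaDeg_eq_of_not_dvd (m := 11) p K P hndvd]
  by_cases hsmall : p < 8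
  · have hp2 := hpp.two_le
    interval_cases p
    · rw [pid11_orderOf_two]; norm_num
    · rw [pid11_orderOf_three]; norm_num
    · exact absurd hpp (by norm_num)
    · rw [pid11_orderOf_five]; norm_num
    · exact absurd hpp (by norm_num)
    · rw [pid11_orderOf_seven]; norm_num
  · have hp8 : 8 ≤ p := not_lt.mp hsmall
    have hr0 : ((p : ℕ) : ZMod 11) ≠ 0 := by
      rw [Ne, ZMod.natCast_eq_zero_iff]
      intro h
      exact h11 ((Nat.prime_dvd_prime_iff_eq hp11 hpp).mp h).symm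
    have hr1 : ((p : ℕ) : ZMod 11) ≠ 1 := by
      intro h
      have h1 : ((p : ℕ) : ZMod 11) = ((1 : ℕ) : ZMod 11) := by rw [h]; simp
      rw [ZMod.natCast_eq_natCast_iff'] at h1
      have hlt : p ≤ 58 := hp58
      interval_cases p <;> first | omega | exact absurd hpp (by norm_num)
    have h2 := pid11_two_le_orderOf _ hr0 hr1
    calc 58 < 8 ^ 2 := by norm_num
      _ ≤ p ^ 2 := Nat.pow_le_pow_left hp8 2
      _ ≤ p ^ orderOf ((p : ℕ) : ZMod 11) := Nat.pow_le_pow_right (by omega) h2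

end Fermat.Agent.Kummer
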