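import Mathlib

/-!
# `ℤ[ζ₁₃]` is a principal ideal domain

Minkowski bound `< 307`.  The only primes `p ≤ 306` having a prime ideal of norm `≤ 306` above them
are `13` (the prime `(ζ - 1)`), `3` (inertia degree `3`, norm `27`, generator `1 + ζ - ζ³`) and
`53`, `79`, `131`, `157` (split completely; generators `1 + ζ + ζ³`, `1 + ζ + ζ² + ζ⁴`,
`1 + ζ² - ζ³`, `1 + ζ² - ζ³ + ζ⁴`).
-/

set_option autoImplicit false

open NumberField Module InfinitePlace Ideal Nat Real IsCyclotomicExtension IsCyclotomicExtension.Rat Polynomial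
  RingOfIntegers NumberField.Ideal

namespace Fermat.Agent.Kummer

/-- The Minkowski bound of `ℚ(ζ₁₃)` is `< 307`. -/
theorem pid13_minkowski_lt (K : Type*) [Field K] [NumberField K]
    [IsCyclotomicExtension {13} ℚ K] :
    (4 / π) ^ nrComplexPlaces K *
      ((finrank ℚ K)! / (finrank ℚ K) ^ (finrank ℚ K) * √|(discr K : ℝ)|) < 307 := by
  have hp13 : Nat.Prime 13 := by norm_num
  have : Fact (Nat.Prime 13) := ⟨hp13⟩
  have hfin : finrank ℚ K = 12 := by
    rw [IsCyclotomicExtension.finrank (n := 13) K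
      (Polynomial.cyclotomic.irreducible_rat (by simp)), totient_prime hp13]
  have hr2 : nrComplexPlaces K = 6 := by
    rw [nrComplexPlaces_eq_totient_div_two 13, totient_prime hp13]
  have hdisc : discr K = 1792160394037 := by
    rw [discr_prime 13 K]
    norm_num
  rw [hfin, hr2, hdisc]
  have hsqrt : √|((1792160394037 : ℤ) : ℝ)| < 1338716 := by
    rw [Real.sqrt_lt' (by norm_num)]
    norm_num
  have hpi : (4 / π) ^ 6 < (4 / 3.1415 : ℝ) ^ 6 := by
    gcongr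
    exact pi_gt_d4
  have hpos : (0 : ℝ) < (4 / π) ^ 6 := by positivity
  have h12 : ((12 : ℕ)! : ℝ) = 479001600 := by
    norm_num [Nat.factorial]
  rw [h12]
  calc (4 / π) ^ 6 * ((479001600 : ℝ) / ((12 : ℕ) : ℝ) ^ 12 * √|((1792160394037 : ℤ) : ℝ)|)
      ≤ (4 / 3.1415 : ℝ) ^ 6 * ((479001600 : ℝ) / ((12 : ℕ) : ℝ) ^ 12 * 1338716) := by
        gcongr
    _ < 307 := by norm_num

theorem pid13_pow_twelve (r : ZMod 13) (hr : r ≠ 0) : r ^ 12 = 1 := by
  revert r
  decide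

theorem pid13_sq_eq_one (r : ZMod 13) (h : r ^ 2 = 1) : r = 1 ∨ r = 12 := by
  revert r
  decide

/-- Residues mod `13` different from `0`, `1`, `-1` have order at least `3`. -/
theorem pid13_three_le_orderOf (r : ZMod 13) (hr0 : r ≠ 0) (hr1 : r ≠ 1) (hr12 : r ≠ 12) :
    3 ≤ orderOf r := by
  have h12 := pid13_pow_twelve r hr0
  have hpos : 0 < orderOf r :=
    orderOf_pos_iff.mpr (isOfFinOrder_iff_pow_eq_one.mpr ⟨12, by norm_num, h12⟩)
  have hne1 : orderOf r ≠ 1 := fun h => hr1 (orderOf_eq_one_iff.mp h)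
  have hne2 : orderOf r ≠ 2 := by
    intro h
    have h2 : r ^ 2 = 1 := by rw [← h]; exact pow_orderOf_eq_one r
    rcases pid13_sq_eq_one r h2 with h' | h'
    · exact hr1 h'
    · exact hr12 h'
  omega

/-- Nonzero residues `≠ 1` mod `13` have order at least `2`. -/
theorem pid13_two_le_orderOf (r : ZMod 13) (hr0 : r ≠ 0) (hr1 : r ≠ 1) : 2 ≤ orderOf r := by
  have h12 := pid13_pow_twelve r hr0
  have hpos : 0 < orderOf r :=
    orderOf_pos_iff.mpr (isOfFinOrder_iff_pow_eq_one.mpr ⟨12, by norm_num, h12⟩)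
  have hne1 : orderOf r ≠ 1 := fun h => hr1 (orderOf_eq_one_iff.mp h)
  omega

theorem pid13_orderOf_two : orderOf ((2 : ℕ) : ZMod 13) = 12 := by
  rw [orderOf_eq_iff (by norm_num)]
  refine ⟨by decide, fun m hm hm0 => ?_⟩
  interval_cases m <;> decide

theorem pid13_orderOf_five : orderOf ((5 : ℕ) : ZMod 13) = 4 := by
  rw [orderOf_eq_iff (by norm_num)]
  refine ⟨by decide, fun m hm hm0 => ?_⟩
  interval_cases m <;> decide

section Special

variable (K : Type*) [Field K] [NumberField K] [IsCyclotomicExtension {13} ℚ K]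

/-- The relation `1 + ζ + ⋯ + ζ¹² = 0`. -/
theorem pid13_geom_sum :
    let θ := (zeta_spec 13 ℚ K).toInteger
    1 + θ + θ ^ 2 + θ ^ 3 + θ ^ 4 + θ ^ 5 + θ ^ 6 + θ ^ 7 + θ ^ 8 + θ ^ 9 + θ ^ 10 + θ ^ 11
      + θ ^ 12 = 0 := by
  intro θ
  have h := (zeta_spec 13 ℚ K).toInteger_isPrimitiveRoot.geom_sum_eq_zero (by norm_num)
  simp only [Finset.sum_range_succ, Finset.sum_range_zero, zero_add, pow_zero, pow_one] at h
  exact h

theorem pid13_minpoly :
    minpoly ℤ (zeta_spec 13 ℚ K).toInteger = cyclotomic 13 ℤ := by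
  have h1 : minpoly ℤ ((zeta_spec 13 ℚ K).toInteger : K) = minpoly ℤ (zeta_spec 13 ℚ K).toInteger :=
    RingOfIntegers.minpoly_coe _
  have h2 : ((zeta_spec 13 ℚ K).toInteger : K) = zeta 13 ℚ K := (zeta_spec 13 ℚ K).coe_toInteger
  exact h1.symm.trans ((congrArg (minpoly ℤ) h2).trans
    (cyclotomic_eq_minpoly (zeta_spec 13 ℚ K) (by norm_num)).symm)

theorem pid13_root_53 : ∑ x ∈ Finset.range 13, (36 : ZMod 53) ^ x = 0 := by decide

/-- There is a principal prime ideal of `ℤ[ζ₁₃]` above `53`. -/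
theorem pid13_exists_principal_over_53 :
    ∃ P ∈ primesOver (span {((53 : ℕ) : ℤ)}) (𝓞 K), Submodule.IsPrincipal P := by
  have hpp : Nat.Prime 53 := by norm_num
  have : Fact (Nat.Prime 53) := ⟨hpp⟩
  set θ := (zeta_spec 13 ℚ K).toInteger with hθ
  have h₁ : ¬ 53 ∣ exponent θ := by
    rw [exponent_eq_one_iff.mpr <| adjoin_singleton_eq_top (zeta_spec 13 ℚ K)]
    norm_num
  have hrel := pid13_geom_sum K
  simp only at hrel
  rw [← hθ] at hrel
  have hQ : (X - C (36 : ℤ) : ℤ[X]).map (Int.castRingHom (ZMod 53)) ∈ monicFactorsMod θ 53 := by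
    rw [Multiset.mem_toFinset, Polynomial.mem_normalizedFactors_iff
      (map_monic_ne_zero (minpoly.monic θ.isIntegral))]
    have hmap : (X - C (36 : ℤ) : ℤ[X]).map (Int.castRingHom (ZMod 53)) = X - C (36 : ZMod 53) := by
      rw [Polynomial.map_sub, Polynomial.map_X, Polynomial.map_C]
      rfl
    have : Fact (Nat.Prime 13) := ⟨by norm_num⟩
    rw [hmap]
    refine ⟨irreducible_X_sub_C _, monic_X_sub_C _, ?_⟩
    rw [dvd_iff_isRoot, pid13_minpoly K, map_cyclotomic, cyclotomic_prime, IsRoot.def]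
    simp only [eval_finsetSum, eval_pow, eval_X]
    exact pid13_root_53
  have hspan := primesOverSpanEquivMonicFactorsMod_symm_apply_eq_span h₁ hQ
  have hmem := ((primesOverSpanEquivMonicFactorsMod h₁).symm
      ⟨(X - C (36 : ℤ) : ℤ[X]).map (Int.castRingHom (ZMod 53)), hQ⟩).prop
  rw [hspan] at hmem
  refine ⟨_, hmem, ?_⟩
  have haeval : aeval θ (X - C (36 : ℤ) : ℤ[X]) = θ - 36 := by
    rw [map_sub, aeval_X, aeval_C]
    simp
  rw [haeval]
  have hαβ : (1 + 1 * θ + 1 * θ ^ 3) * (1 + (-24) * θ + (-35) * θ ^ 2 + (-25) * θ ^ 3 + (-10) * θ ^ 4 + (-14) * θ ^ 5 + (-20) * θ ^ 6 + (-29) * θ ^ 7 + (-16) * θ ^ 8 + (-23) * θ ^ 9 + (-7) * θ ^ 10 + (-36) * θ ^ 11) = 53 := by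
    linear_combination ((-52) + 29 * θ + (-36) * θ ^ 2) * hrel
  have hαγ : (1 + 1 * θ + 1 * θ ^ 3) * (17 * θ + 24 * θ ^ 2 + 17 * θ ^ 3 + 7 * θ ^ 4 + 10 * θ ^ 5 + 14 * θ ^ 6 + 20 * θ ^ 7 + 11 * θ ^ 8 + 16 * θ ^ 9 + 5 * θ ^ 10 + 25 * θ ^ 11) = θ - 36 := by
    linear_combination (36 + (-20) * θ + 25 * θ ^ 2) * hrel
  have heq : span {((53 : ℕ) : 𝓞 K), θ - 36} = span {1 + 1 * θ + 1 * θ ^ 3} := by
    apply le_antisymm
    · rw [span_le]
      intro x hx
      rcases hx with rfl | rfl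
      · exact mem_span_singleton.mpr ⟨_, by rw [hαβ]; norm_num⟩
      · exact mem_span_singleton.mpr ⟨_, hαγ.symm⟩
    · rw [span_le]
      intro x hx
      rw [Set.mem_singleton_iff] at hx
      rw [hx]
      refine mem_span_pair.mpr ⟨881, 1297 + 36 * θ + 1 * θ ^ 2, ?_⟩
      push_cast
      ring
  rw [heq]
  exact ⟨⟨_, rfl⟩⟩


theorem pid13_root_79 : ∑ x ∈ Finset.range 13, (52 : ZMod 79) ^ x = 0 := by decide

/-- There is a principal prime ideal of `ℤ[ζ₁₃]` above `79`. -/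
theorem pid13_exists_principal_over_79 :
    ∃ P ∈ primesOver (span {((79 : ℕ) : ℤ)}) (𝓞 K), Submodule.IsPrincipal P := by
  have hpp : Nat.Prime 79 := by norm_num
  have : Fact (Nat.Prime 79) := ⟨hpp⟩
  set θ := (zeta_spec 13 ℚ K).toInteger with hθ
  have h₁ : ¬ 79 ∣ exponent θ := by
    rw [exponent_eq_one_iff.mpr <| adjoin_singleton_eq_top (zeta_spec 13 ℚ K)]
    norm_num
  have hrel := pid13_geom_sum K
  simp only at hrel
  rw [← hθ] at hrel
  have hQ : (X - C (52 : ℤ) : ℤ[X]).map (Int.castRingHom (ZMod 79)) ∈ monicFactorsMod θ 79 := by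
    rw [Multiset.mem_toFinset, Polynomial.mem_normalizedFactors_iff
      (map_monic_ne_zero (minpoly.monic θ.isIntegral))]
    have hmap : (X - C (52 : ℤ) : ℤ[X]).map (Int.castRingHom (ZMod 79)) = X - C (52 : ZMod 79) := by
      rw [Polynomial.map_sub, Polynomial.map_X, Polynomial.map_C]
      rfl
    have : Fact (Nat.Prime 13) := ⟨by norm_num⟩
    rw [hmap]
    refine ⟨irreducible_X_sub_C _, monic_X_sub_C _, ?_⟩
    rw [dvd_iff_isRoot, pid13_minpoly K, map_cyclotomic, cyclotomic_prime, IsRoot.def]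
    simp only [eval_finsetSum, eval_pow, eval_X]
    exact pid13_root_79
  have hspan := primesOverSpanEquivMonicFactorsMod_symm_apply_eq_span h₁ hQ
  have hmem := ((primesOverSpanEquivMonicFactorsMod h₁).symm
      ⟨(X - C (52 : ℤ) : ℤ[X]).map (Int.castRingHom (ZMod 79)), hQ⟩).prop
  rw [hspan] at hmem
  refine ⟨_, hmem, ?_⟩
  have haeval : aeval θ (X - C (52 : ℤ) : ℤ[X]) = θ - 52 := by
    rw [map_sub, aeval_X, aeval_C]
    simp
  rw [haeval]
  have hαβ : (1 + 1 * θ + 1 * θ ^ 2 + 1 * θ ^ 4) * ((-15) + (-32) * θ + (-46) * θ ^ 2 + (-25) * θ ^ 3 + (-17) * θ ^ 4 + (-29) * θ ^ 5 + (-11) * θ ^ 6 + (-38) * θ ^ 7 + (-37) * θ ^ 8 + 1 * θ ^ 9 + (-56) * θ ^ 10 + (-10) * θ ^ 11) = 79 := by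
    linear_combination ((-94) + 47 * θ + (-46) * θ ^ 2 + (-10) * θ ^ 3) * hrel
  have hαγ : (1 + 1 * θ + 1 * θ ^ 2 + 1 * θ ^ 4) * (10 + 21 * θ + 30 * θ ^ 2 + 16 * θ ^ 3 + 11 * θ ^ 4 + 19 * θ ^ 5 + 7 * θ ^ 6 + 25 * θ ^ 7 + 24 * θ ^ 8 + (-1) * θ ^ 9 + 37 * θ ^ 10 + 6 * θ ^ 11) = θ - 52 := by
    linear_combination (62 + (-32) * θ + 31 * θ ^ 2 + 6 * θ ^ 3) * hrel
  have heq : span {((79 : ℕ) : 𝓞 K), θ - 52} = span {1 + 1 * θ + 1 * θ ^ 2 + 1 * θ ^ 4} := by
    apply le_antisymm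
    · rw [span_le]
      intro x hx
      rcases hx with rfl | rfl
      · exact mem_span_singleton.mpr ⟨_, by rw [hαβ]; norm_num⟩
      · exact mem_span_singleton.mpr ⟨_, hαγ.symm⟩
    · rw [span_le]
      intro x hx
      rw [Set.mem_singleton_iff] at hx
      rw [hx]
      refine mem_span_pair.mpr ⟨92587, 140661 + 2705 * θ + 52 * θ ^ 2 + 1 * θ ^ 3, ?_⟩
      push_cast
      ring
  rw [heq]
  exact ⟨⟨_, rfl⟩⟩


theorem pid13_root_131 : ∑ x ∈ Finset.range 13, (113 : ZMod 131) ^ x = 0 := by decide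

/-- There is a principal prime ideal of `ℤ[ζ₁₃]` above `131`. -/
theorem pid13_exists_principal_over_131 :
    ∃ P ∈ primesOver (span {((131 : ℕ) : ℤ)}) (𝓞 K), Submodule.IsPrincipal P := by
  have hpp : Nat.Prime 131 := by norm_num
  have : Fact (Nat.Prime 131) := ⟨hpp⟩
  set θ := (zeta_spec 13 ℚ K).toInteger with hθ
  have h₁ : ¬ 131 ∣ exponent θ := by
    rw [exponent_eq_one_iff.mpr <| adjoin_singleton_eq_top (zeta_spec 13 ℚ K)]
    norm_num
  have hrel := pid13_geom_sum K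
  simp only at hrel
  rw [← hθ] at hrel
  have hQ : (X - C (113 : ℤ) : ℤ[X]).map (Int.castRingHom (ZMod 131)) ∈ monicFactorsMod θ 131 := by
    rw [Multiset.mem_toFinset, Polynomial.mem_normalizedFactors_iff
      (map_monic_ne_zero (minpoly.monic θ.isIntegral))]
    have hmap : (X - C (113 : ℤ) : ℤ[X]).map (Int.castRingHom (ZMod 131)) = X - C (113 : ZMod 131) := by
      rw [Polynomial.map_sub, Polynomial.map_X, Polynomial.map_C]
      rfl
    have : Fact (Nat.Prime 13) := ⟨by norm_num⟩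
    rw [hmap]
    refine ⟨irreducible_X_sub_C _, monic_X_sub_C _, ?_⟩
    rw [dvd_iff_isRoot, pid13_minpoly K, map_cyclotomic, cyclotomic_prime, IsRoot.def]
    simp only [eval_finsetSum, eval_pow, eval_X]
    exact pid13_root_131
  have hspan := primesOverSpanEquivMonicFactorsMod_symm_apply_eq_span h₁ hQ
  have hmem := ((primesOverSpanEquivMonicFactorsMod h₁).symm
      ⟨(X - C (113 : ℤ) : ℤ[X]).map (Int.castRingHom (ZMod 131)), hQ⟩).prop
  rw [hspan] at hmem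
  refine ⟨_, hmem, ?_⟩
  have haeval : aeval θ (X - C (113 : ℤ) : ℤ[X]) = θ - 113 := by
    rw [map_sub, aeval_X, aeval_C]
    simp
  rw [haeval]
  have hαβ : (1 + 1 * θ ^ 2 + (-1) * θ ^ 3) * ((-13) + (-5) * θ + (-20) * θ ^ 2 + (-41) * θ ^ 3 + (-18) * θ ^ 4 + (-12) * θ ^ 5 + (-56) * θ ^ 6 + (-39) * θ ^ 7 + 11 * θ ^ 8 + (-50) * θ ^ 9 + (-83) * θ ^ 10 + 28 * θ ^ 11) = 131 := by
    linear_combination ((-144) + 139 * θ + (-28) * θ ^ 2) * hrel
  have hαγ : (1 + 1 * θ ^ 2 + (-1) * θ ^ 3) * (11 + 4 * θ + 17 * θ ^ 2 + 35 * θ ^ 3 + 15 * θ ^ 4 + 10 * θ ^ 5 + 48 * θ ^ 6 + 33 * θ ^ 7 + (-10) * θ ^ 8 + 43 * θ ^ 9 + 71 * θ ^ 10 + (-25) * θ ^ 11) = θ - 113 := by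
    linear_combination (124 + (-121) * θ + 25 * θ ^ 2) * hrel
  have heq : span {((131 : ℕ) : 𝓞 K), θ - 113} = span {1 + 1 * θ ^ 2 + (-1) * θ ^ 3} := by
    apply le_antisymm
    · rw [span_le]
      intro x hx
      rcases hx with rfl | rfl
      · exact mem_span_singleton.mpr ⟨_, by rw [hαβ]; norm_num⟩
      · exact mem_span_singleton.mpr ⟨_, hαγ.symm⟩
    · rw [span_le]
      intro x hx
      rw [Set.mem_singleton_iff] at hx
      rw [hx]
      refine mem_span_pair.mpr ⟨(-10917), (-12656) + (-112) * θ + (-1) * θ ^ 2, ?_⟩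
      push_cast
      ring
  rw [heq]
  exact ⟨⟨_, rfl⟩⟩


theorem pid13_root_157 : ∑ x ∈ Finset.range 13, (67 : ZMod 157) ^ x = 0 := by decide

/-- There is a principal prime ideal of `ℤ[ζ₁₃]` above `157`. -/
theorem pid13_exists_principal_over_157 :
    ∃ P ∈ primesOver (span {((157 : ℕ) : ℤ)}) (𝓞 K), Submodule.IsPrincipal P := by
  have hpp : Nat.Prime 157 := by norm_num
  have : Fact (Nat.Prime 157) := ⟨hpp⟩
  set θ := (zeta_spec 13 ℚ K).toInteger with hθ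
  have h₁ : ¬ 157 ∣ exponent θ := by
    rw [exponent_eq_one_iff.mpr <| adjoin_singleton_eq_top (zeta_spec 13 ℚ K)]
    norm_num
  have hrel := pid13_geom_sum K
  simp only at hrel
  rw [← hθ] at hrel
  have hQ : (X - C (67 : ℤ) : ℤ[X]).map (Int.castRingHom (ZMod 157)) ∈ monicFactorsMod θ 157 := by
    rw [Multiset.mem_toFinset, Polynomial.mem_normalizedFactors_iff
      (map_monic_ne_zero (minpoly.monic θ.isIntegral))]
    have hmap : (X - C (67 : ℤ) : ℤ[X]).map (Int.castRingHom (ZMod 157)) = X - C (67 : ZMod 157) := by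
      rw [Polynomial.map_sub, Polynomial.map_X, Polynomial.map_C]
      rfl
    have : Fact (Nat.Prime 13) := ⟨by norm_num⟩
    rw [hmap]
    refine ⟨irreducible_X_sub_C _, monic_X_sub_C _, ?_⟩
    rw [dvd_iff_isRoot, pid13_minpoly K, map_cyclotomic, cyclotomic_prime, IsRoot.def]
    simp only [eval_finsetSum, eval_pow, eval_X]
    exact pid13_root_157
  have hspan := primesOverSpanEquivMonicFactorsMod_symm_apply_eq_span h₁ hQ
  have hmem := ((primesOverSpanEquivMonicFactorsMod h₁).symm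
      ⟨(X - C (67 : ℤ) : ℤ[X]).map (Int.castRingHom (ZMod 157)), hQ⟩).prop
  rw [hspan] at hmem
  refine ⟨_, hmem, ?_⟩
  have haeval : aeval θ (X - C (67 : ℤ) : ℤ[X]) = θ - 67 := by
    rw [map_sub, aeval_X, aeval_C]
    simp
  rw [haeval]
  have hαβ : (1 + 1 * θ ^ 2 + (-1) * θ ^ 3 + 1 * θ ^ 4) * ((-11) + (-51) * θ + (-68) * θ ^ 2 + (-87) * θ ^ 3 + (-99) * θ ^ 4 + (-57) * θ ^ 5 + (-47) * θ ^ 6 + (-82) * θ ^ 7 + (-38) * θ ^ 8 + (-35) * θ ^ 9 + (-124) * θ ^ 10 + (-48) * θ ^ 11) = 157 := by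
    linear_combination ((-168) + 117 * θ + (-28) * θ ^ 2 + (-48) * θ ^ 3) * hrel
  have hαγ : (1 + 1 * θ ^ 2 + (-1) * θ ^ 3 + 1 * θ ^ 4) * (5 + 22 * θ + 29 * θ ^ 2 + 37 * θ ^ 3 + 42 * θ ^ 4 + 24 * θ ^ 5 + 20 * θ ^ 6 + 35 * θ ^ 7 + 16 * θ ^ 8 + 15 * θ ^ 9 + 53 * θ ^ 10 + 20 * θ ^ 11) = θ - 67 := by
    linear_combination (72 + (-51) * θ + 13 * θ ^ 2 + 20 * θ ^ 3) * hrel
  have heq : span {((157 : ℕ) : 𝓞 K), θ - 67} = span {1 + 1 * θ ^ 2 + (-1) * θ ^ 3 + 1 * θ ^ 4} := by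
    apply le_antisymm
    · rw [span_le]
      intro x hx
      rcases hx with rfl | rfl
      · exact mem_span_singleton.mpr ⟨_, by rw [hαβ]; norm_num⟩
      · exact mem_span_singleton.mpr ⟨_, hαγ.symm⟩
    · rw [span_le]
      intro x hx
      rw [Set.mem_singleton_iff] at hx
      rw [hx]
      refine mem_span_pair.mpr ⟨126464, 296341 + 4423 * θ + 66 * θ ^ 2 + 1 * θ ^ 3, ?_⟩
      push_cast
      ring
  rw [heq]
  exact ⟨⟨_, rfl⟩⟩

theorem pid13_three_eq_zero : (3 : (ZMod 3)[X]) = 0 := by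
  have h : ((3 : ℕ) : (ZMod 3)[X]) = 0 := by
    rw [← map_natCast (C : ZMod 3 →+* (ZMod 3)[X])]
    have : ((3 : ℕ) : ZMod 3) = 0 := by decide
    rw [this, map_zero]
  exact_mod_cast h

theorem pid13_cubic_not_isRoot (x : ZMod 3) : x ^ 3 - x - 1 ≠ 0 := by
  revert x
  decide

/-- There is a principal prime ideal of `ℤ[ζ₁₃]` above `3`. -/
theorem pid13_exists_principal_over_3 :
    ∃ P ∈ primesOver (span {((3 : ℕ) : ℤ)}) (𝓞 K), Submodule.IsPrincipal P := by
  have hpp : Nat.Prime 3 := by norm_num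
  have : Fact (Nat.Prime 3) := ⟨hpp⟩
  set θ := (zeta_spec 13 ℚ K).toInteger with hθ
  have h₁ : ¬ 3 ∣ exponent θ := by
    rw [exponent_eq_one_iff.mpr <| adjoin_singleton_eq_top (zeta_spec 13 ℚ K)]
    norm_num
  have hrel := pid13_geom_sum K
  simp only at hrel
  rw [← hθ] at hrel
  have hmap : (X ^ 3 - X - C (1 : ℤ) : ℤ[X]).map (Int.castRingHom (ZMod 3))
      = X ^ 3 - X - C (1 : ZMod 3) := by
    simp only [Polynomial.map_sub, Polynomial.map_pow, Polynomial.map_X, Polynomial.map_C]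
    rfl
  have hmonic : (X ^ 3 - X - C (1 : ZMod 3) : (ZMod 3)[X]).Monic := by
    have : (X ^ 3 - X - C (1 : ZMod 3) : (ZMod 3)[X]) = X ^ 3 - (X + C 1) := by ring
    rw [this]
    apply monic_X_pow_sub
    rw [degree_X_add_C]
    norm_num
  have hdeg : (X ^ 3 - X - C (1 : ZMod 3) : (ZMod 3)[X]).natDegree = 3 := by
    have : (X ^ 3 - X - C (1 : ZMod 3) : (ZMod 3)[X]) = X ^ 3 - (X + C 1) := by ring
    rw [this]
    rw [natDegree_sub_eq_left_of_natDegree_lt]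
    · exact natDegree_X_pow 3
    · rw [natDegree_X_pow, natDegree_X_add_C]
      norm_num
  have hQ : (X ^ 3 - X - C (1 : ℤ) : ℤ[X]).map (Int.castRingHom (ZMod 3)) ∈ monicFactorsMod θ 3 := by
    rw [Multiset.mem_toFinset, Polynomial.mem_normalizedFactors_iff
      (map_monic_ne_zero (minpoly.monic θ.isIntegral))]
    have : Fact (Nat.Prime 13) := ⟨by norm_num⟩
    rw [hmap]
    refine ⟨?_, hmonic, ?_⟩
    · apply irreducible_of_degree_le_three_of_not_isRoot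
      · rw [hdeg]; decide
      · intro x hx
        rw [IsRoot.def] at hx
        simp only [eval_sub, eval_pow, eval_X, eval_C] at hx
        exact pid13_cubic_not_isRoot x hx
    · rw [pid13_minpoly K, map_cyclotomic, cyclotomic_prime]
      refine ⟨(-1) + (-1) * X ^ 2 + (-1) * X ^ 3 + X ^ 5 + (-1) * X ^ 7 + X ^ 8 + X ^ 9, ?_⟩
      simp only [Finset.sum_range_succ, Finset.sum_range_zero, zero_add, pow_zero, pow_one, map_one]
      linear_combination (X ^ 5 + X ^ 6 + X ^ 9 + X ^ 10) * pid13_three_eq_zero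
  have hspan := primesOverSpanEquivMonicFactorsMod_symm_apply_eq_span h₁ hQ
  have hmem := ((primesOverSpanEquivMonicFactorsMod h₁).symm
      ⟨(X ^ 3 - X - C (1 : ℤ) : ℤ[X]).map (Int.castRingHom (ZMod 3)), hQ⟩).prop
  rw [hspan] at hmem
  refine ⟨_, hmem, ?_⟩
  have haeval : aeval θ (X ^ 3 - X - C (1 : ℤ) : ℤ[X]) = θ ^ 3 - θ - 1 := by
    simp only [map_sub, map_pow, aeval_X, aeval_C]
    simp
  rw [haeval]
  have hαβ : (1 + θ + (-1) * θ ^ 3) * ((-1) + (-1) * θ ^ 2 + (-1) * θ ^ 3 + (-2) * θ ^ 5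
      + (-1) * θ ^ 7 + (-2) * θ ^ 8 + θ ^ 9 + (-3) * θ ^ 10) = 3 := by
    linear_combination ((-4) + 3 * θ) * hrel
  have heq : span {((3 : ℕ) : 𝓞 K), θ ^ 3 - θ - 1} = span {1 + θ + (-1) * θ ^ 3} := by
    apply le_antisymm
    · rw [span_le]
      intro x hx
      rcases hx with rfl | rfl
      · exact mem_span_singleton.mpr ⟨_, by rw [hαβ]; norm_num⟩
      · exact mem_span_singleton.mpr ⟨-1, by ring⟩
    · rw [span_le]
      intro x hx
      rw [Set.mem_singleton_iff] at hx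
      rw [hx]
      refine mem_span_pair.mpr ⟨0, -1, ?_⟩
      ring
  rw [heq]
  exact ⟨⟨_, rfl⟩⟩

end Special

theorem thirteen_pid (K : Type*) [Field K] [NumberField K] [IsCyclotomicExtension {13} ℚ K] :
    IsPrincipalIdealRing (𝓞 K) := by
  have hp13 : Nat.Prime 13 := by norm_num
  have : Fact (Nat.Prime 13) := ⟨hp13⟩
  have : IsGalois ℚ K := IsCyclotomicExtension.isGalois {13} ℚ K
  have hM := pid13_minkowski_lt K
  have hfloor : ⌊(4 / π) ^ nrComplexPlaces K *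
      ((finrank ℚ K)! / (finrank ℚ K) ^ (finrank ℚ K) * √|(discr K : ℝ)|)⌋₊ ≤ 306 := by
    rw [← Nat.lt_succ_iff, Nat.floor_lt (by positivity)]
    exact_mod_cast hM
  apply RingOfIntegers.isPrincipalIdealRing_of_isPrincipal_of_lt_or_isPrincipal_of_mem_primesOver_of_mem_Icc
  intro p hp hpp
  have : Fact p.Prime := ⟨hpp⟩
  have hp306 : p ≤ 306 := (Finset.mem_Icc.mp hp).2.trans hfloor
  by_cases h13 : p = 13
  · subst h13
    obtain ⟨⟨P, hP1, hP2⟩⟩ := (span {((13 : ℕ) : ℤ)}).nonempty_primesOver (S := 𝓞 K)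
    refine ⟨P, ⟨hP1, hP2⟩, Or.inr ?_⟩
    rw [eq_span_zeta_sub_one_of_liesOver' 13 K (zeta_spec 13 ℚ K) P]
    exact ⟨⟨_, rfl⟩⟩
  by_cases h3 : p = 3
  · subst h3
    obtain ⟨P, hP, hprin⟩ := pid13_exists_principal_over_3 K
    exact ⟨P, hP, Or.inr hprin⟩
  by_cases h53 : p = 53
  · subst h53
    obtain ⟨P, hP, hprin⟩ := pid13_exists_principal_over_53 K
    exact ⟨P, hP, Or.inr hprin⟩
  by_cases h79 : p = 79
  · subst h79
    obtain ⟨P, hP, hprin⟩ := pid13_exists_principal_over_79 K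
    exact ⟨P, hP, Or.inr hprin⟩
  by_cases h131 : p = 131
  · subst h131
    obtain ⟨P, hP, hprin⟩ := pid13_exists_principal_over_131 K
    exact ⟨P, hP, Or.inr hprin⟩
  by_cases h157 : p = 157
  · subst h157
    obtain ⟨P, hP, hprin⟩ := pid13_exists_principal_over_157 K
    exact ⟨P, hP, Or.inr hprin⟩
  obtain ⟨⟨P, hP1, hP2⟩⟩ := (span {(p : ℤ)}).nonempty_primesOver (S := 𝓞 K)
  refine ⟨P, ⟨hP1, hP2⟩, Or.inl ?_⟩
  refine lt_of_le_of_lt hfloor ?_
  have hndvd : ¬ p ∣ 13 := by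
    intro h
    exact h13 ((Nat.prime_dvd_prime_iff_eq hpp hp13).mp h)
  rw [inertiaDeg_eq_of_not_dvd (m := 13) p K P hndvd]
  have hp2 := hpp.two_le
  by_cases hsmall : p < 7
  · interval_cases p
    · rw [pid13_orderOf_two]; norm_num
    · exact absurd rfl h3
    · exact absurd hpp (by norm_num)
    · rw [pid13_orderOf_five]; norm_num
    · exact absurd hpp (by norm_num)
  · have hp7 : 7 ≤ p := not_lt.mp hsmall
    have hr0 : ((p : ℕ) : ZMod 13) ≠ 0 := by
      rw [Ne, ZMod.natCast_eq_zero_iff]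
      intro h
      exact h13 ((Nat.prime_dvd_prime_iff_eq hp13 hpp).mp h).symm
    have hr1 : ((p : ℕ) : ZMod 13) ≠ 1 := by
      intro h
      have h1 : ((p : ℕ) : ZMod 13) = ((1 : ℕ) : ZMod 13) := by rw [h]; simp
      rw [ZMod.natCast_eq_natCast_iff'] at h1
      have hlt : p ≤ 306 := hp306
      interval_cases p <;> first | omega | exact absurd hpp (by norm_num)
    by_cases hr12 : ((p : ℕ) : ZMod 13) = 12
    · -- order two, but then `p ≥ 18`
      have h1 : ((p : ℕ) : ZMod 13) = ((12 : ℕ) : ZMod 13) := by rw [hr12]; rfl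
      rw [ZMod.natCast_eq_natCast_iff'] at h1
      have hp18 : 18 ≤ p := by
        by_contra hlt
        have hlt' : p < 18 := not_le.mp hlt
        interval_cases p <;> first | omega | exact absurd hpp (by norm_num)
      have h2 := pid13_two_le_orderOf _ hr0 hr1
      calc 306 < 18 ^ 2 := by norm_num
        _ ≤ p ^ 2 := Nat.pow_le_pow_left hp18 2
        _ ≤ p ^ orderOf ((p : ℕ) : ZMod 13) := Nat.pow_le_pow_right (by omega) h2
    · have h3' := pid13_three_le_orderOf _ hr0 hr1 hr12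
      calc 306 < 7 ^ 3 := by norm_num
        _ ≤ p ^ 3 := Nat.pow_le_pow_left hp7 3
        _ ≤ p ^ orderOf ((p : ℕ) : ZMod 13) := Nat.pow_le_pow_right (by omega) h3'

end Fermat.Agent.Kummer
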