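import Mathlib

/-!
# `ℤ[ζ₇]` is a principal ideal domain

Minkowski bound `< 5`; the primes `2` and `3` have inertia degree `3` and `6` in `ℚ(ζ₇)`.
-/

set_option autoImplicit false

open NumberField Module InfinitePlace Ideal Nat Real IsCyclotomicExtension.Rat

namespace Fermat.Agent.Kummer

/-- The Minkowski bound of `ℚ(ζ₇)` is `< 5`. -/
theorem pid7_minkowski_lt (K : Type*) [Field K] [NumberField K] [IsCyclotomicExtension {7} ℚ K] :
    (4 / π) ^ nrComplexPlaces K *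
      ((finrank ℚ K)! / (finrank ℚ K) ^ (finrank ℚ K) * √|(discr K : ℝ)|) < 5 := by
  have hp7 : Nat.Prime 7 := by norm_num
  have : Fact (Nat.Prime 7) := ⟨hp7⟩
  have hfin : finrank ℚ K = 6 := by
    rw [IsCyclotomicExtension.finrank (n := 7) K (Polynomial.cyclotomic.irreducible_rat (by simp)),
      totient_prime hp7]
  have hr2 : nrComplexPlaces K = 3 := by
    rw [nrComplexPlaces_eq_totient_div_two 7, totient_prime hp7]
  have hdisc : discr K = -16807 := by
    rw [discr_prime 7 K]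
    norm_num
  rw [hfin, hr2, hdisc]
  have hsqrt : √|((-16807 : ℤ) : ℝ)| < 129.65 := by
    rw [Real.sqrt_lt' (by norm_num)]
    norm_num
  have hpi : (4 / π) ^ 3 < (4 / 3.14 : ℝ) ^ 3 := by
    gcongr
    exact pi_gt_d2
  have hpos : (0 : ℝ) < (4 / π) ^ 3 := by positivity
  have h6 : ((6 : ℕ)! : ℝ) = 720 := by
    norm_num [Nat.factorial]
  rw [h6]
  calc (4 / π) ^ 3 * ((720 : ℝ) / ((6 : ℕ) : ℝ) ^ 6 * √|((-16807 : ℤ) : ℝ)|)
      ≤ (4 / 3.14 : ℝ) ^ 3 * ((720 : ℝ) / ((6 : ℕ) : ℝ) ^ 6 * 129.65) := by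
        gcongr
    _ < 5 := by norm_num

theorem pid7_orderOf_two : orderOf ((2 : ℕ) : ZMod 7) = 3 := by
  rw [orderOf_eq_iff (by norm_num)]
  refine ⟨by decide, fun m hm hm0 => ?_⟩
  interval_cases m <;> decide

theorem pid7_orderOf_three : orderOf ((3 : ℕ) : ZMod 7) = 6 := by
  rw [orderOf_eq_iff (by norm_num)]
  refine ⟨by decide, fun m hm hm0 => ?_⟩
  interval_cases m <;> decide

theorem seven_pid (K : Type*) [Field K] [NumberField K] [IsCyclotomicExtension {7} ℚ K] :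
    IsPrincipalIdealRing (𝓞 K) := by
  have hp7 : Nat.Prime 7 := by norm_num
  have : Fact (Nat.Prime 7) := ⟨hp7⟩
  have : IsGalois ℚ K := IsCyclotomicExtension.isGalois {7} ℚ K
  have hM := pid7_minkowski_lt K
  have hfloor : ⌊(4 / π) ^ nrComplexPlaces K *
      ((finrank ℚ K)! / (finrank ℚ K) ^ (finrank ℚ K) * √|(discr K : ℝ)|)⌋₊ ≤ 4 := by
    rw [← Nat.lt_succ_iff, Nat.floor_lt (by positivity)]
    exact_mod_cast hM
  apply RingOfIntegers.isPrincipalIdealRing_of_isPrincipal_of_lt_or_isPrincipal_of_mem_primesOver_of_mem_Icc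
  intro p hp hpp
  have : Fact p.Prime := ⟨hpp⟩
  have hp4 : p ≤ 4 := (Finset.mem_Icc.mp hp).2.trans hfloor
  obtain ⟨⟨P, hP1, hP2⟩⟩ := (span {(p : ℤ)}).nonempty_primesOver (S := 𝓞 K)
  refine ⟨P, ⟨hP1, hP2⟩, Or.inl ?_⟩
  refine lt_of_le_of_lt hfloor ?_
  have hp23 : p = 2 ∨ p = 3 := by
    have := hpp.two_le
    interval_cases p
    · left; rfl
    · right; rfl
    · exact absurd hpp (by norm_num)
  rcases hp23 with rfl | rfl
  · rw [inertiaDeg_eq_of_not_dvd (m := 7) 2 K P (by norm_num)]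
    rw [pid7_orderOf_two]
    norm_num
  · rw [inertiaDeg_eq_of_not_dvd (m := 7) 3 K P (by norm_num)]
    rw [pid7_orderOf_three]
    norm_num

end Fermat.Agent.Kummer
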