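import Mathlib
import Fermat.Agent.Kummer.Defs

/-!
# Kummer project: Sophie Germain's theorem and case I for the exponents 5, 7, 11, 13
-/

set_option autoImplicit false

namespace Fermat.Agent.Kummer

open Finset

/-- The cofactor `φ(u, v) = (u ^ p + v ^ p) / (u + v)`. -/
private def sgPhi (p : ℕ) (u v : ℤ) : ℤ := ∑ i ∈ range p, u ^ i * (-v) ^ (p - 1 - i)

private lemma sgPhi_mul {p : ℕ} (hodd : Odd p) (u v : ℤ) :
    sgPhi p u v * (u + v) = u ^ p + v ^ p := by
  have h := geom_sum₂_mul u (-v) p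
  rw [hodd.neg_pow, sub_neg_eq_add, sub_neg_eq_add] at h
  exact h

/-- If `u ^ p + v ^ p + w ^ p = 0` and `IsCoprime u v`, then `IsCoprime v w`. -/
private lemma sg_coprime_rot {p : ℕ} (hp0 : p ≠ 0) {u v w : ℤ} (h : u ^ p + v ^ p + w ^ p = 0)
    (huv : IsCoprime u v) : IsCoprime v w := by
  refine isCoprime_of_prime_dvd ?_ ?_
  · rintro ⟨rfl, rfl⟩
    have hu : u = 0 := by
      have : u ^ p = 0 := by simpa [hp0] using h
      exact pow_eq_zero_iff hp0 |>.mp this
    subst hu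
    exact not_isCoprime_zero_zero huv
  · intro r hr hrv hrw
    have hru : r ∣ u := by
      have : r ∣ u ^ p := by
        have e : u ^ p = -(v ^ p) - w ^ p := by linear_combination h
        rw [e]
        exact dvd_sub ((dvd_pow hrv hp0).neg_right) (dvd_pow hrw hp0)
      exact hr.dvd_of_dvd_pow this
    exact hr.not_isUnit (huv.isUnit_of_dvd' hru hrv)

/-- Key factorisation step: `u + v` and `φ(u, v)` are `p`-th powers. -/
private lemma sg_factor {p : ℕ} (hp : p.Prime) (hp2 : p ≠ 2) {u v w : ℤ}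
    (h : u ^ p + v ^ p + w ^ p = 0) (huv : IsCoprime u v) (hpw : ¬ (p : ℤ) ∣ w) :
    (∃ A : ℤ, u + v = A ^ p) ∧ ∃ α : ℤ, sgPhi p u v = α ^ p := by
  have hodd : Odd p := hp.odd_of_ne_two hp2
  have hpp : Prime (p : ℤ) := Nat.prime_iff_prime_int.mp hp
  have hmul : sgPhi p u v * (u + v) = (-w) ^ p := by
    rw [sgPhi_mul hodd, hodd.neg_pow]; linear_combination h
  have hcop : IsCoprime (sgPhi p u v) (u + v) := by
    refine isCoprime_of_prime_dvd ?_ ?_
    · rintro ⟨-, h0⟩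
      -- `u = -v` and coprime: `v` is a unit; then `w = 0`, contradiction with `p ∤ w`
      have hw : w = 0 := by
        have : (-w) ^ p = 0 := by rw [← hmul, h0, mul_zero]
        simpa using pow_eq_zero_iff hp.ne_zero |>.mp this
      exact hpw (hw ▸ dvd_zero _)
    · intro r hr hrφ hruv
      have hsub : r ∣ u - (-v) := by simpa using hruv
      have h1 := (dvd_geom_sum₂_iff_of_dvd_sub (n := p) hsub).mp hrφ
      rcases hr.dvd_or_dvd h1 with h2 | h2
      · -- `r ∣ p`, so `p ∣ r`-multiples: `p ∣ u + v`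
        have hpr : (p : ℤ) ∣ r := by
          rcases (hpp.irreducible.dvd_iff.mp h2) with h3 | h3
          · exact absurd h3 hr.not_isUnit
          · exact h3.dvd
        have hpw' : (p : ℤ) ∣ (-w) ^ p := by
          rw [← hmul]; exact Dvd.dvd.mul_left (hpr.trans hruv) _
        exact hpw (by simpa using hpp.dvd_of_dvd_pow hpw')
      · have hrv : r ∣ v := by simpa using hr.dvd_of_dvd_pow h2
        have hru : r ∣ u := by
          have : u = (u + v) - v := by ring
          rw [this]; exact dvd_sub hruv hrv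
        exact hr.not_isUnit (huv.isUnit_of_dvd' hru hrv)
  obtain ⟨⟨α, hα⟩, ⟨A, hA⟩⟩ := Int.eq_pow_of_mul_eq_pow_odd hcop hodd hmul
  exact ⟨⟨A, hA⟩, ⟨α, hα⟩⟩

/-- Core of Sophie Germain's theorem, normalised so that `q ∣ x`. -/
private lemma sg_main {p q : ℕ} (hp : p.Prime) (hp2 : p ≠ 2) (hq : q.Prime)
    (h1 : ∀ x y z : ZMod q, x ^ p + y ^ p + z ^ p = 0 → x * y * z = 0)
    (h2 : ∀ x : ZMod q, x ^ p ≠ (p : ZMod q))
    {x y z : ℤ} (h : x ^ p + y ^ p + z ^ p = 0)
    (hxy : IsCoprime x y) (hyz : IsCoprime y z) (hzx : IsCoprime z x)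
    (hpx : ¬ (p : ℤ) ∣ x) (hpy : ¬ (p : ℤ) ∣ y) (hpz : ¬ (p : ℤ) ∣ z)
    (hqx : (q : ℤ) ∣ x) : False := by
  have : Fact q.Prime := ⟨hq⟩
  have hodd : Odd p := hp.odd_of_ne_two hp2
  have hqq : Prime (q : ℤ) := Nat.prime_iff_prime_int.mp hq
  obtain ⟨⟨A, hA⟩, ⟨α, hα⟩⟩ := sg_factor hp hp2 (show y ^ p + z ^ p + x ^ p = 0 by
    linear_combination h) hyz hpx
  obtain ⟨⟨B, hB⟩, -⟩ := sg_factor hp hp2 (show z ^ p + x ^ p + y ^ p = 0 by
    linear_combination h) hzx hpy
  obtain ⟨⟨C, hC⟩, -⟩ := sg_factor hp hp2 h hxy hpz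
  have hx0 : (x : ZMod q) = 0 := (ZMod.intCast_zmod_eq_zero_iff_dvd x q).mpr hqx
  -- casts of the three relations
  have hA' : (y : ZMod q) + z = (A : ZMod q) ^ p := by exact_mod_cast congrArg (Int.cast) hA
  have hB' : (z : ZMod q) + x = (B : ZMod q) ^ p := by exact_mod_cast congrArg (Int.cast) hB
  have hC' : (x : ZMod q) + y = (C : ZMod q) ^ p := by exact_mod_cast congrArg (Int.cast) hC
  rw [hx0] at hB' hC'
  have hsum : (B : ZMod q) ^ p + (C : ZMod q) ^ p + (-(A : ZMod q)) ^ p = 0 := by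
    rw [hodd.neg_pow, ← hA', ← hB', ← hC']; ring
  have hprod := h1 _ _ _ hsum
  have hy0 : (y : ZMod q) ≠ 0 := by
    intro hy
    have hqy : (q : ℤ) ∣ y := (ZMod.intCast_zmod_eq_zero_iff_dvd y q).mp hy
    exact hqq.not_isUnit (hxy.isUnit_of_dvd' hqx hqy)
  have hz0 : (z : ZMod q) ≠ 0 := by
    intro hz
    have hqz : (q : ℤ) ∣ z := (ZMod.intCast_zmod_eq_zero_iff_dvd z q).mp hz
    exact hqq.not_isUnit (hzx.isUnit_of_dvd' hqz hqx)
  have hB0 : (B : ZMod q) ≠ 0 := by
    intro hB0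
    rw [hB0, zero_pow hp.ne_zero, add_zero] at hB'
    exact hz0 hB'
  have hC0 : (C : ZMod q) ≠ 0 := by
    intro hC0
    rw [hC0, zero_pow hp.ne_zero, zero_add] at hC'
    exact hy0 hC'
  have hA0 : (A : ZMod q) = 0 := by
    rcases mul_eq_zero.mp hprod with h3 | h3
    · rcases mul_eq_zero.mp h3 with h4 | h4
      · exact absurd h4 hB0
      · exact absurd h4 hC0
    · exact neg_eq_zero.mp h3
  have hzy : (z : ZMod q) = -y := by
    rw [hA0, zero_pow hp.ne_zero] at hA'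
    linear_combination hA'
  -- `α ^ p = p * y ^ (p - 1)` in `ZMod q`
  have hα' : (α : ZMod q) ^ p = (p : ZMod q) * (y : ZMod q) ^ (p - 1) := by
    have e : ((sgPhi p y z : ℤ) : ZMod q) = (α : ZMod q) ^ p := by
      exact_mod_cast congrArg (Int.cast) hα
    rw [← e, sgPhi]
    push_cast
    rw [hzy, neg_neg]
    have : ∀ i ∈ range p, (y : ZMod q) ^ i * (y : ZMod q) ^ (p - 1 - i) = (y : ZMod q) ^ (p - 1) := by
      intro i hi
      rw [← pow_add]
      congr 1
      have := mem_range.mp hi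
      omega
    rw [sum_congr rfl this, sum_const, card_range, nsmul_eq_mul]
  -- `y = C ^ p`
  have hyC : (y : ZMod q) = (C : ZMod q) ^ p := by simpa using hC'
  apply h2 ((α : ZMod q) * ((C : ZMod q) ^ (p - 1))⁻¹)
  have hCne : ((C : ZMod q) ^ (p - 1)) ^ p ≠ 0 := pow_ne_zero _ (pow_ne_zero _ hC0)
  rw [mul_pow, inv_pow, hα', hyC]
  field_simp
  ring

/-- **Sophie Germain's theorem** (in Legendre's form): if `q` is an auxiliary prime such that
`x ^ p + y ^ p + z ^ p = 0` has only trivial solutions modulo `q` and `p` is not a `p`-th power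
modulo `q`, then case I of Fermat's Last Theorem holds for `p`. -/
theorem caseI_of_sophieGermain {p q : ℕ} (hp : p.Prime) (hp2 : p ≠ 2) (hq : q.Prime)
    (h1 : ∀ x y z : ZMod q, x ^ p + y ^ p + z ^ p = 0 → x * y * z = 0)
    (h2 : ∀ x : ZMod q, x ^ p ≠ (p : ZMod q)) : CaseI p := by
  have : Fact q.Prime := ⟨hq⟩
  have hodd : Odd p := hp.odd_of_ne_two hp2
  have hpp : Prime (p : ℤ) := Nat.prime_iff_prime_int.mp hp
  have hqq : Prime (q : ℤ) := Nat.prime_iff_prime_int.mp hq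
  intro a b c hpabc hF
  -- nonvanishing and non-divisibility
  have hpa : ¬ (p : ℤ) ∣ a := fun h => hpabc (Dvd.dvd.mul_right (Dvd.dvd.mul_right h b) c)
  have hpb : ¬ (p : ℤ) ∣ b := fun h => hpabc (Dvd.dvd.mul_right (Dvd.dvd.mul_left h a) c)
  have hpc : ¬ (p : ℤ) ∣ c := fun h => hpabc (Dvd.dvd.mul_left h (a * b))
  have ha0 : a ≠ 0 := fun h => hpa (h ▸ dvd_zero _)
  -- divide out the gcd of `a` and `b`
  have hd0 : 0 < Int.gcd a b := Int.gcd_pos_of_ne_zero_left b ha0
  obtain ⟨a', b', hcop, ha', hb'⟩ := Int.exists_gcd_one hd0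
  set d : ℤ := (Int.gcd a b : ℤ) with hd
  have hdne : d ≠ 0 := by
    rw [hd]; exact_mod_cast hd0.ne'
  have hdc : d ∣ c := by
    have : d ^ p ∣ c ^ p := by
      rw [← hF, ha', hb', mul_pow, mul_pow]
      exact dvd_add (dvd_mul_left _ _) (dvd_mul_left _ _)
    exact (Int.pow_dvd_pow_iff hp.ne_zero).mp this
  obtain ⟨c', hc'⟩ := hdc
  have hF' : a' ^ p + b' ^ p = c' ^ p := by
    have hdp : d ^ p ≠ 0 := pow_ne_zero _ hdne
    apply mul_left_cancel₀ hdp
    rw [ha', hb', hc'] at hF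
    linear_combination hF
  have hpa' : ¬ (p : ℤ) ∣ a' := fun h => hpa (ha' ▸ Dvd.dvd.mul_right h _)
  have hpb' : ¬ (p : ℤ) ∣ b' := fun h => hpb (hb' ▸ Dvd.dvd.mul_right h _)
  have hpc' : ¬ (p : ℤ) ∣ c' := fun h => hpc (hc' ▸ Dvd.dvd.mul_left h _)
  have hpnc' : ¬ (p : ℤ) ∣ -c' := fun h => hpc' ((dvd_neg).mp h)
  have hxy : IsCoprime a' b' := Int.isCoprime_iff_gcd_eq_one.mpr hcop
  have h0 : a' ^ p + b' ^ p + (-c') ^ p = 0 := by
    rw [hodd.neg_pow]; linear_combination hF'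
  have hyz : IsCoprime b' (-c') := sg_coprime_rot hp.ne_zero h0 hxy
  have hzx : IsCoprime (-c') a' :=
    sg_coprime_rot hp.ne_zero (show b' ^ p + (-c') ^ p + a' ^ p = 0 by linear_combination h0) hyz
  -- `q` divides one of them
  have hq3 : (a' : ZMod q) * b' * ((-c' : ℤ) : ZMod q) = 0 := by
    apply h1
    have := congrArg (Int.cast : ℤ → ZMod q) h0
    push_cast at this ⊢
    exact this
  rcases mul_eq_zero.mp hq3 with h3 | h3
  · rcases mul_eq_zero.mp h3 with h4 | h4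
    · exact sg_main hp hp2 hq h1 h2 h0 hxy hyz hzx hpa' hpb' hpnc'
        ((ZMod.intCast_zmod_eq_zero_iff_dvd _ q).mp h4)
    · exact sg_main hp hp2 hq h1 h2 (show b' ^ p + (-c') ^ p + a' ^ p = 0 by linear_combination h0)
        hyz hzx hxy hpb' hpnc' hpa' ((ZMod.intCast_zmod_eq_zero_iff_dvd _ q).mp h4)
  · exact sg_main hp hp2 hq h1 h2 (show (-c') ^ p + a' ^ p + b' ^ p = 0 by linear_combination h0)
      hzx hxy hyz hpnc' hpa' hpb' ((ZMod.intCast_zmod_eq_zero_iff_dvd _ q).mp h3)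

/-! ### The exponents 5, 7, 11, 13 -/

set_option maxRecDepth 100000 in
private lemma sg_pow5 : ∀ x : ZMod 11, x = 0 ∨ x ^ 5 = 1 ∨ x ^ 5 = 10 := by decide

set_option maxRecDepth 100000 in
private lemma sg_pow7 : ∀ x : ZMod 29,
    x = 0 ∨ x ^ 7 = 1 ∨ x ^ 7 = 12 ∨ x ^ 7 = 17 ∨ x ^ 7 = 28 := by decide

set_option maxRecDepth 100000 in
private lemma sg_pow11 : ∀ x : ZMod 23, x = 0 ∨ x ^ 11 = 1 ∨ x ^ 11 = 22 := by decide

set_option maxRecDepth 100000 in
private lemma sg_pow13 : ∀ x : ZMod 53,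
    x = 0 ∨ x ^ 13 = 1 ∨ x ^ 13 = 23 ∨ x ^ 13 = 30 ∨ x ^ 13 = 52 := by decide

private lemma sg_h1_5 : ∀ x y z : ZMod 11, x ^ 5 + y ^ 5 + z ^ 5 = 0 → x * y * z = 0 := by
  intro x y z h
  rcases sg_pow5 x with hx | hx | hx
  · simp [hx]
  all_goals
    rcases sg_pow5 y with hy | hy | hy
    · simp [hy]
    all_goals
      rcases sg_pow5 z with hz | hz | hz
      · simp [hz]
      all_goals
        rw [hx, hy, hz] at h
        exact absurd h (by decide)

private lemma sg_h1_7 : ∀ x y z : ZMod 29, x ^ 7 + y ^ 7 + z ^ 7 = 0 → x * y * z = 0 := by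
  intro x y z h
  rcases sg_pow7 x with hx | hx | hx | hx | hx
  · simp [hx]
  all_goals
    rcases sg_pow7 y with hy | hy | hy | hy | hy
    · simp [hy]
    all_goals
      rcases sg_pow7 z with hz | hz | hz | hz | hz
      · simp [hz]
      all_goals
        rw [hx, hy, hz] at h
        exact absurd h (by decide)

private lemma sg_h1_11 : ∀ x y z : ZMod 23, x ^ 11 + y ^ 11 + z ^ 11 = 0 → x * y * z = 0 := by
  intro x y z h
  rcases sg_pow11 x with hx | hx | hx
  · simp [hx]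
  all_goals
    rcases sg_pow11 y with hy | hy | hy
    · simp [hy]
    all_goals
      rcases sg_pow11 z with hz | hz | hz
      · simp [hz]
      all_goals
        rw [hx, hy, hz] at h
        exact absurd h (by decide)

private lemma sg_h1_13 : ∀ x y z : ZMod 53, x ^ 13 + y ^ 13 + z ^ 13 = 0 → x * y * z = 0 := by
  intro x y z h
  rcases sg_pow13 x with hx | hx | hx | hx | hx
  · simp [hx]
  all_goals
    rcases sg_pow13 y with hy | hy | hy | hy | hy
    · simp [hy]
    all_goals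
      rcases sg_pow13 z with hz | hz | hz | hz | hz
      · simp [hz]
      all_goals
        rw [hx, hy, hz] at h
        exact absurd h (by decide)

set_option maxRecDepth 100000 in
private lemma sg_h2_5 : ∀ x : ZMod 11, x ^ 5 ≠ ((5 : ℕ) : ZMod 11) := by decide

set_option maxRecDepth 100000 in
private lemma sg_h2_7 : ∀ x : ZMod 29, x ^ 7 ≠ ((7 : ℕ) : ZMod 29) := by decide

set_option maxRecDepth 100000 in
private lemma sg_h2_11 : ∀ x : ZMod 23, x ^ 11 ≠ ((11 : ℕ) : ZMod 23) := by decide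

set_option maxRecDepth 100000 in
private lemma sg_h2_13 : ∀ x : ZMod 53, x ^ 13 ≠ ((13 : ℕ) : ZMod 53) := by decide

/-- Case I of Fermat's Last Theorem for the exponents 5, 7, 11, 13. -/
theorem caseI_small {p : ℕ} (hp : p = 5 ∨ p = 7 ∨ p = 11 ∨ p = 13) : CaseI p := by
  rcases hp with rfl | rfl | rfl | rfl
  · exact caseI_of_sophieGermain (q := 11) (by norm_num) (by norm_num) (by norm_num)
      sg_h1_5 sg_h2_5
  · exact caseI_of_sophieGermain (q := 29) (by norm_num) (by norm_num) (by norm_num)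
      sg_h1_7 sg_h2_7
  · exact caseI_of_sophieGermain (q := 23) (by norm_num) (by norm_num) (by norm_num)
      sg_h1_11 sg_h2_11
  · exact caseI_of_sophieGermain (q := 53) (by norm_num) (by norm_num) (by norm_num)
      sg_h1_13 sg_h2_13

end Fermat.Agent.Kummer
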