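import Mathlib
import Fermat.Agent.Kummer.SophieGermain
import Fermat.Agent.Kummer.Glue
import Fermat.Agent.Kummer.Descent
import Fermat.Agent.Kummer.KL
import Fermat.Agent.Kummer.PID7
import Fermat.Agent.Kummer.PID11
import Fermat.Agent.Kummer.PID13
import Fermat.Agent.Kummer.Frey

/-!
# Kummer project: Fermat's Last Theorem for the exponents 5, 7, 11, 13
-/

set_option autoImplicit false

open NumberField

namespace Fermat.Agent.Kummer

/-- The rings of integers of the `p`-th cyclotomic fields, `p = 5, 7, 11, 13`, are principal. -/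
theorem pid_small {p : ℕ} (hp : p = 5 ∨ p = 7 ∨ p = 11 ∨ p = 13)
    (K : Type*) [Field K] [NumberField K] [IsCyclotomicExtension {p} ℚ K] :
    IsPrincipalIdealRing (𝓞 K) := by
  rcases hp with rfl | rfl | rfl | rfl
  · exact IsCyclotomicExtension.Rat.five_pid K
  · exact seven_pid K
  · exact eleven_pid K
  · exact thirteen_pid K

set_option backward.isDefEq.respectTransparency false in
/-- Case II of Fermat's Last Theorem for the exponents 5, 7, 11, 13. -/
theorem caseII_small {p : ℕ} (hp : p = 5 ∨ p = 7 ∨ p = 11 ∨ p = 13) : CaseII p := by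
  have hprime : p.Prime := by rcases hp with rfl | rfl | rfl | rfl <;> norm_num
  have hp5 : 5 ≤ p := by rcases hp with rfl | rfl | rfl | rfl <;> norm_num
  haveI : Fact p.Prime := ⟨hprime⟩
  haveI : NeZero p := ⟨hprime.ne_zero⟩
  haveI : NeZero ((p : ℕ) : ℚ) := ⟨by exact_mod_cast hprime.ne_zero⟩
  exact caseII_of_pid_of_kummerLemma hp5 (CyclotomicField p ℚ)
    (pid_small hp (CyclotomicField p ℚ)) (kummerLemma_small hp (CyclotomicField p ℚ))

/-- Fermat's Last Theorem for the exponents 5, 7, 11, 13. -/
theorem flt_small {p : ℕ} (hp : p = 5 ∨ p = 7 ∨ p = 11 ∨ p = 13) : FermatLastTheoremFor p := by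
  have hprime : p.Prime := by rcases hp with rfl | rfl | rfl | rfl <;> norm_num
  have hp2 : p ≠ 2 := by rcases hp with rfl | rfl | rfl | rfl <;> norm_num
  exact flt_of_caseI_of_caseII hprime hp2 (caseI_small hp) (caseII_small hp)

/-- There is no Frey package with exponent 5, 7, 11 or 13. -/
theorem false_of_freyPackage_small (P : FreyPackage)
    (hp : P.p = 5 ∨ P.p = 7 ∨ P.p = 11 ∨ P.p = 13) : False :=
  false_of_freyPackage_of_flt P (flt_small hp)

end Fermat.Agent.Kummer
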